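/-
The `p`-torsion of an integral Weierstrass curve as a module over the groups at a place above `p`:
definitions.
-/
import Fermat.Prelude.Def_EllipticCurve_FrobeniusTrace
import Fermat.Prelude.Def_FLTPrelim_Ramification
import Fermat.Prelude.Def_FLTPrelim_Modularity
import Mathlib.LinearAlgebra.Dimension.Finrank

set_option autoImplicit false

open scoped WeierstrassCurve.Affine

namespace Fermat.Agent.AtP

/-- The `p`-torsion points over `ℚ̄` of a Weierstrass curve over `ℤ`. -/
abbrev Tors (W : WeierstrassCurve ℤ) (p : ℕ) : Type :=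
  Submodule.torsionBy ℤ ((W.map (Int.castRingHom ℚ))⁄(AlgebraicClosure ℚ)).Point p

variable {W : WeierstrassCurve ℤ} {p : ℕ} [Fact p.Prime]
  {A : ValuationSubring (AlgebraicClosure ℚ)}

/-- Inertia at `A` is transitive on the nonzero `p`-torsion points. -/
def IsInertiaTransitive (W : WeierstrassCurve ℤ) (p : ℕ)
    (A : ValuationSubring (AlgebraicClosure ℚ)) : Prop :=
  ∀ x y : Tors W p, x ≠ 0 → y ≠ 0 → ∃ σ ∈ A.inertiaSubgroupIn ℚ, σ • x = y

/-- `N` is a line stable under the decomposition group at `A`, on whose quotient inertia acts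
trivially and on which inertia acts by the cyclotomic character. -/
structure IsOrdinaryLine (A : ValuationSubring (AlgebraicClosure ℚ))
    (N : Submodule (ZMod p) (Tors W p)) : Prop where
  finrank_eq : Module.finrank (ZMod p) N = 1
  decomposition_mem : ∀ σ ∈ A.decompositionSubgroup ℚ, ∀ x ∈ N, σ • x ∈ N
  inertia_sub_mem : ∀ σ ∈ A.inertiaSubgroupIn ℚ, ∀ x : Tors W p, σ • x - x ∈ N
  inertia_cyclotomic : ∀ σ ∈ A.inertiaSubgroupIn ℚ, ∀ a : ℕ,
    (∀ μ : AlgebraicClosure ℚ, μ ^ p = 1 → σ μ = μ ^ a) → ∀ x ∈ N, σ • x = a • x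

end Fermat.Agent.AtP
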