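/-
The odd division polynomials of an elliptic curve over a field of characteristic not two do not
vanish at the roots of `Ψ₂Sq`; in particular they are nonzero polynomials, also when `n` is zero
in the field.
-/
import Mathlib.AlgebraicGeometry.EllipticCurve.DivisionPolynomial.Degree
import Mathlib.FieldTheory.IsAlgClosed.AlgebraicClosure
import Mathlib.Algebra.Polynomial.Derivative

set_option autoImplicit false
set_option maxHeartbeats 400000

open Polynomial WeierstrassCurve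

namespace Fermat.Agent.AtP

variable {K : Type*} [Field K] (W : WeierstrassCurve K)

theorem eval_Ψ₃_ne_zero (h2 : (2 : K) ≠ 0) (hΔ : W.Δ ≠ 0) {x : K}
    (hx : W.Ψ₂Sq.eval x = 0) : W.Ψ₃.eval x ≠ 0 := by
  intro h3
  have hg : 4 * x ^ 3 + W.b₂ * x ^ 2 + 2 * W.b₄ * x + W.b₆ = 0 := by
    simpa [WeierstrassCurve.Ψ₂Sq] using hx
  have h3' : 3 * x ^ 4 + W.b₂ * x ^ 3 + 3 * W.b₄ * x ^ 2 + 3 * W.b₆ * x + W.b₈ = 0 := by
    simpa [WeierstrassCurve.Ψ₃] using h3
  have hrel := W.b_relation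
  have hd : (12 * x ^ 2 + 2 * W.b₂ * x + 2 * W.b₄) ^ 2 = 0 := by
    linear_combination (2 * (24 * x + 2 * W.b₂)) * hg - 16 * h3' + 4 * hrel
  have hd' : 12 * x ^ 2 + 2 * W.b₂ * x + 2 * W.b₄ = 0 := eq_zero_of_pow_eq_zero hd
  have hb4 : W.b₄ = -(6 * x ^ 2) - W.b₂ * x := by
    apply mul_left_cancel₀ h2
    linear_combination hd'
  have hb6 : W.b₆ = -(4 * x ^ 3) - W.b₂ * x ^ 2 - 2 * W.b₄ * x := by linear_combination hg
  have hdisc : W.twoTorsionPolynomial.discr = 0 := by
    simp only [WeierstrassCurve.twoTorsionPolynomial, Cubic.discr]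
    rw [hb6, hb4]
    ring
  rw [twoTorsionPolynomial_discr] at hdisc
  have h16 : (16 : K) ≠ 0 := by
    rw [show (16 : K) = 2 ^ 4 by norm_num]
    exact pow_ne_zero 4 h2
  exact hΔ ((mul_eq_zero.1 hdisc).resolve_left h16)

/-- An odd division polynomial does not vanish at a root of `Ψ₂Sq`. -/
theorem eval_preΨ'_ne_zero (h2 : (2 : K) ≠ 0) (hΔ : W.Δ ≠ 0) {x : K}
    (hx : W.Ψ₂Sq.eval x = 0) : ∀ n : ℕ, Odd n → (W.preΨ' n).eval x ≠ 0 := by
  intro n
  induction n using Nat.strong_induction_on with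
  | _ n ih =>
    intro hn
    obtain ⟨k, rfl⟩ := hn
    match k with
    | 0 => simp
    | 1 =>
      rw [show 2 * 1 + 1 = 3 from rfl, preΨ'_three]
      exact eval_Ψ₃_ne_zero W h2 hΔ hx
    | m + 2 =>
      rw [preΨ'_odd]
      by_cases hm : Even m
      · simp only [hm, if_true, eval_sub, eval_mul, eval_pow, hx, eval_one]
        obtain ⟨j, rfl⟩ := hm
        simp only [ne_eq, OfNat.ofNat_ne_zero, not_false_eq_true, zero_pow, mul_zero, mul_one,
          zero_sub, neg_eq_zero, mul_eq_zero, not_or]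
        exact ⟨ih _ (by omega) ⟨j, by omega⟩, pow_ne_zero 3 (ih _ (by omega) ⟨j + 1, by omega⟩)⟩
      · simp only [hm, if_false, eval_sub, eval_mul, eval_pow, hx, eval_one]
        obtain ⟨j, rfl⟩ := Nat.not_even_iff_odd.1 hm
        simp only [ne_eq, OfNat.ofNat_ne_zero, not_false_eq_true, zero_pow, mul_zero, mul_one,
          sub_zero, mul_eq_zero, not_or]
        exact ⟨ih _ (by omega) ⟨j + 2, by omega⟩, pow_ne_zero 3 (ih _ (by omega) ⟨j + 1, by omega⟩)⟩

/-- An odd division polynomial of an elliptic curve in characteristic not two is nonzero. -/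
theorem preΨ'_ne_zero_of_odd (h2 : (2 : K) ≠ 0) (hΔ : W.Δ ≠ 0) {n : ℕ} (hn : Odd n) :
    W.preΨ' n ≠ 0 := by
  intro h0
  set V := W.map (algebraMap K (AlgebraicClosure K)) with hV
  have h2' : (2 : AlgebraicClosure K) ≠ 0 := by
    rw [← map_ofNat (algebraMap K (AlgebraicClosure K)) 2]
    exact (_root_.map_ne_zero _).2 h2
  have h4 : (4 : AlgebraicClosure K) ≠ 0 := by
    rw [show (4 : AlgebraicClosure K) = 2 * 2 by norm_num]
    exact mul_ne_zero h2' h2'
  have hdeg : V.Ψ₂Sq.degree ≠ 0 := by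
    rw [degree_eq_natDegree (V.Ψ₂Sq_ne_zero h4), V.natDegree_Ψ₂Sq h4]
    simp
  obtain ⟨x, hx⟩ := IsAlgClosed.exists_root _ hdeg
  refine eval_preΨ'_ne_zero V h2' ?_ hx n hn ?_
  · rw [hV, map_Δ]
    exact (_root_.map_ne_zero _).2 hΔ
  · rw [hV, map_preΨ', h0, Polynomial.map_zero, eval_zero]

end Fermat.Agent.AtP
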