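/-
Over an algebraically closed field of characteristic `p`, the reduced curve has a point of order
`p` exactly when `p` does not divide `a_p`.
-/
import Fermat.Agent.AtP.DivPolyModP
import Fermat.Agent.EC.DivPolyPoint
import Fermat.Agent.EC.TorsionCard
import Fermat.Agent.Weil.Frobenius
import Mathlib.FieldTheory.Finite.GaloisField
import Mathlib.GroupTheory.Perm.Cycle.Type

set_option autoImplicit false
set_option maxHeartbeats 400000

open Polynomial WeierstrassCurve WeierstrassCurve.Affine
open scoped WeierstrassCurve.Affine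

namespace Fermat.Agent.AtP

/-- Points of two equal curves. -/
noncomputable def pointEquivOfEq {K : Type*} [Field K] [DecidableEq K]
    {V₁ V₂ : WeierstrassCurve.Affine K} (h : V₁ = V₂) : V₁.Point ≃+ V₂.Point :=
  h ▸ AddEquiv.refl _

theorem pointEquivOfEq_zero {K : Type*} [Field K] [DecidableEq K]
    {V₁ V₂ : WeierstrassCurve.Affine K} (h : V₁ = V₂) : pointEquivOfEq h 0 = 0 := map_zero _

theorem pointEquivOfEq_some {K : Type*} [Field K] [DecidableEq K]
    {V₁ V₂ : WeierstrassCurve.Affine K} (h : V₁ = V₂) (x y : K) (hxy : V₁.Nonsingular x y) :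
    pointEquivOfEq h (.some x y hxy) = .some x y (h ▸ hxy) := by
  subst h
  rfl

/-- Above every `x` there is a point of the curve. -/
theorem exists_nonsingular {K : Type*} [Field K] [IsAlgClosed K] (V : WeierstrassCurve.Affine K)
    (hΔ : V.Δ ≠ 0) (x : K) : ∃ y : K, V.Nonsingular x y := by
  obtain ⟨y, hy⟩ := IsAlgClosed.exists_root
    (X ^ 2 + C (V.a₁ * x + V.a₃) * X - C (x ^ 3 + V.a₂ * x ^ 2 + V.a₄ * x + V.a₆)) (by
      rw [degree_sub_eq_left_of_degree_lt, degree_add_eq_left_of_degree_lt, degree_X_pow]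
      · decide
      · rw [degree_X_pow]
        exact (degree_C_mul_X_le _).trans_lt (by decide)
      · rw [degree_add_eq_left_of_degree_lt, degree_X_pow]
        · exact degree_C_le.trans_lt (by decide)
        · rw [degree_X_pow]
          exact (degree_C_mul_X_le _).trans_lt (by decide))
  refine ⟨y, (V.equation_iff_nonsingular_of_Δ_ne_zero hΔ).1 ?_⟩
  simp only [IsRoot, eval_sub, eval_add, eval_mul, eval_pow, eval_C, eval_X] at hy
  rw [Affine.equation_iff]
  linear_combination hy

/-- The group of points over an algebraically closed field is nontrivial. -/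
theorem exists_point_ne_zero {K : Type*} [Field K] [IsAlgClosed K]
    (V : WeierstrassCurve.Affine K) (hΔ : V.Δ ≠ 0) : ∃ P : V.Point, P ≠ 0 := by
  obtain ⟨y, h⟩ := exists_nonsingular V hΔ 0
  exact ⟨.some 0 y h, Point.some_ne_zero h⟩

/-- If a root `φ` of `X² - aX + p` is raised to the power `n`, it becomes a root of
`X² - sX + pⁿ`, with `s ≡ aⁿ` modulo `p`. -/
theorem exists_trace_pow (a p : ℤ) (n : ℕ) : ∃ s : ℤ,
    (X ^ 2 - C a * X + C p : ℤ[X]) ∣ X ^ n * X ^ n - C s * X ^ n + C (p ^ n) ∧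
      (n ≠ 0 → p ∣ s - a ^ n) := by
  set f : ℤ[X] := X ^ 2 - C a * X + C p with hf
  suffices key : ∀ n, ∃ s t : ℤ, f ∣ X ^ n + (C a - X) ^ n - C s ∧
      f ∣ X ^ (n + 1) + (C a - X) ^ (n + 1) - C t ∧ p ∣ t - a ^ (n + 1) ∧
      (n ≠ 0 → p ∣ s - a ^ n) by
    obtain ⟨s, t, hs, -, -, hsa⟩ := key n
    refine ⟨s, ?_, hsa⟩
    have h1 : f ∣ (X * (C a - X)) ^ n - (C p) ^ n := by
      refine (Dvd.intro (-1) ?_).trans (sub_dvd_pow_sub_pow _ _ n)
      rw [hf]; ring
    have h2 := (hs.mul_right (X ^ n)).sub h1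
    convert h2 using 1
    rw [map_pow, mul_pow]
    ring
  intro n
  induction n with
  | zero => exact ⟨2, a, by norm_num [map_ofNat], by simp, by simp, by simp⟩
  | succ n ih =>
    obtain ⟨s, t, hs, ht, hta, hsa⟩ := ih
    refine ⟨t, a * t - p * s, ht, ?_, ?_, fun _ => hta⟩
    · have h1 : f ∣ C a * (X ^ (n + 1) + (C a - X) ^ (n + 1) - C t) -
          C p * (X ^ n + (C a - X) ^ n - C s) := (ht.mul_left _).sub (hs.mul_left _)
      have h2 : f ∣ f * (X ^ n + (C a - X) ^ n) := dvd_mul_right _ _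
      convert h1.add h2 using 1
      rw [hf, map_sub, map_mul, map_mul]
      ring
    · obtain ⟨c, hc⟩ := hta
      refine ⟨a * c - s, ?_⟩
      linear_combination a * hc

section

variable {p : ℕ} [Fact p.Prime] (V : WeierstrassCurve (ZMod p)) {K : Type*} [Field K]
  [Algebra (ZMod p) K] [IsAlgClosed K] [DecidableEq K]

theorem natCard_point_baseChange_self {k : Type*} [Field k] (U : WeierstrassCurve k)
    [DecidableEq k] : Nat.card (U⁄k).Point = Nat.card U.toAffine.Point :=
  Nat.card_congr (pointEquivOfEq (by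
    change (U.map (algebraMap k k)).toAffine = U.toAffine
    rw [Algebra.algebraMap_self, WeierstrassCurve.map_id])).toEquiv

/-- No point of order `p` when `p ∣ a`. -/
theorem eq_zero_of_dvd_trace [V.IsElliptic] [Algebra.IsAlgebraic (ZMod p) K]
    (ha : (p : ℤ) ∣ V.traceOfFrobenius) (P : (V⁄K).Point) (hP : p • P = 0) : P = 0 := by
  let σ : K ≃ₐ[ZMod p] K := FiniteField.frobeniusAlgEquivOfAlgebraic (ZMod p) K
  have hσ : ∀ x : K, σ x = x ^ Nat.card (ZMod p) := fun x => by
    rw [Nat.card_eq_fintype_card]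
    rfl
  have h := Weil.frobenius_sq_sub_trace_add V σ hσ P
  obtain ⟨m, hm⟩ := ha
  rw [Nat.card_zmod, natCast_zsmul, hP, add_zero, hm, mul_comm, mul_smul, natCast_zsmul,
    ← smul_comm σ p P, hP, smul_zero, smul_zero, sub_zero, smul_eq_zero_iff_eq,
    smul_eq_zero_iff_eq] at h
  exact h

/-- A point of order `p` when `p ∤ a`. -/
theorem exists_point_of_not_dvd_trace [V.IsElliptic] [Algebra.IsAlgebraic (ZMod p) K]
    (ha : ¬ (p : ℤ) ∣ V.traceOfFrobenius) : ∃ P : (V⁄K).Point, P ≠ 0 ∧ p • P = 0 := by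
  classical
  have hp : p.Prime := Fact.out
  set n := p - 1 with hn
  have hn0 : n ≠ 0 := by have := hp.two_le; omega
  let k' := GaloisField p n
  let ι : k' →ₐ[ZMod p] K := IsAlgClosed.lift
  letI : Algebra k' K := ι.toRingHom.toAlgebra
  have htower : IsScalarTower (ZMod p) k' K := IsScalarTower.of_algHom ι
  have hfin : Finite k' := inferInstance
  have hcard : Nat.card k' = p ^ n := GaloisField.card p n hn0
  let V' : WeierstrassCurve k' := V.map (algebraMap (ZMod p) k')
  have hV' : V'.IsElliptic := inferInstanceAs (V.map _).IsElliptic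
  have heq : (V'⁄K : WeierstrassCurve.Affine K) = (V⁄K : WeierstrassCurve.Affine K) := by
    change (V.map (algebraMap (ZMod p) k')).map (algebraMap k' K) = V.map (algebraMap (ZMod p) K)
    rw [WeierstrassCurve.map_map, ← IsScalarTower.algebraMap_eq]
  let e := pointEquivOfEq heq
  let σ : K ≃ₐ[ZMod p] K := FiniteField.frobeniusAlgEquivOfAlgebraic (ZMod p) K
  have hσ : ∀ x : K, σ x = x ^ Nat.card (ZMod p) := fun x => by
    rw [Nat.card_eq_fintype_card]
    rfl
  have hσn : ∀ (j : ℕ) (x : K), (σ ^ j) x = x ^ (p ^ j) := by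
    intro j
    induction j with
    | zero => simp
    | succ j ih =>
      intro x
      rw [pow_succ', AlgEquiv.mul_apply, ih, map_pow, hσ, Nat.card_zmod, ← pow_mul, pow_succ']
  let σ' : K ≃ₐ[k'] K := AlgEquiv.ofRingEquiv (f := (σ ^ n : K ≃ₐ[ZMod p] K).toRingEquiv) (by
    intro x
    change (σ ^ n) (ι x) = ι x
    rw [hσn, ← map_pow, ← hcard]
    cases nonempty_fintype k'
    rw [Nat.card_eq_fintype_card, FiniteField.pow_card])
  have hσ' : ∀ x : K, σ' x = x ^ Nat.card k' := fun x => by rw [hcard]; exact hσn n x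
  have heσ : ∀ P : (V'⁄K).Point, e (σ' • P) = (σ ^ n) • e P := by
    intro P
    cases P with
    | zero =>
      change e 0 = (σ ^ n) • e 0
      rw [map_zero]
      exact (smul_zero (A := (V⁄K).Point) (σ ^ n)).symm
    | some x y h =>
      change pointEquivOfEq heq (Point.some (σ' x) (σ' y) _) = _
      rw [pointEquivOfEq_some, show e (Point.some x y h) = Point.some x y (heq ▸ h) from
        pointEquivOfEq_some heq x y h]
      rfl
  -- the two quadratic relations of `σ ^ n`
  obtain ⟨s, hdvd, hs⟩ := exists_trace_pow V.traceOfFrobenius p n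
  let φ : AddMonoid.End (V⁄K).Point := DistribSMul.toAddMonoidHom _ σ
  have hφ : ∀ (j : ℕ) (P : (V⁄K).Point), (φ ^ j) P = (σ ^ j) • P := by
    intro j
    induction j with
    | zero => intro P; rw [pow_zero, pow_zero, one_smul]; rfl
    | succ j ih =>
      intro P
      rw [pow_succ', pow_succ', mul_smul]
      change φ ((φ ^ j) P) = _
      rw [ih]
      rfl
  have hroot : (aeval φ) (X ^ 2 - C V.traceOfFrobenius * X + C (p : ℤ)) = 0 := by
    refine DFunLike.ext _ _ fun P => ?_
    have h := Weil.frobenius_sq_sub_trace_add V σ hσ P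
    rw [Nat.card_zmod] at h
    rw [map_add, map_sub, map_mul, map_pow, aeval_X, aeval_C, aeval_C]
    simp only [eq_intCast, sq, map_natCast, Int.cast_natCast, AddMonoidHom.add_apply,
      AddMonoidHom.sub_apply, AddMonoid.End.coe_mul, Function.comp_apply,
      AddMonoid.End.natCast_apply, AddMonoid.End.intCast_apply, AddMonoidHom.zero_apply]
    rw [natCast_zsmul] at h
    exact h
  have hrel : ∀ Q : (V⁄K).Point,
      (σ ^ n) • (σ ^ n) • Q - s • ((σ ^ n) • Q) + ((p : ℤ) ^ n) • Q = 0 := by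
    intro Q
    obtain ⟨g, hg⟩ := hdvd
    have h := congrArg (fun r : ℤ[X] => (aeval φ r : AddMonoid.End (V⁄K).Point) Q) hg
    simp only [map_mul, hroot, zero_mul, map_add, map_sub, map_pow, aeval_X, aeval_C] at h
    simp only [eq_intCast, Int.cast_natCast, AddMonoid.End.coe_mul, Function.comp_apply,
      AddMonoidHom.add_apply, AddMonoidHom.sub_apply, AddMonoidHom.zero_apply,
      AddMonoid.End.intCast_apply, hφ] at h
    rw [← Nat.cast_pow] at h
    change (φ ^ n) ((φ ^ n) Q) - (s : AddMonoid.End (V⁄K).Point) ((φ ^ n) Q) +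
      ((p ^ n : ℕ) : AddMonoid.End (V⁄K).Point) Q = 0 at h
    rw [hφ, hφ, AddMonoid.End.intCast_apply, AddMonoid.End.natCast_apply,
      ← natCast_zsmul, Nat.cast_pow] at h
    exact h
  -- hence the trace over `k'` is `s`
  have hsa : V'.traceOfFrobenius = s := by
    by_contra hne
    obtain ⟨P₀, hP₀⟩ := exists_point_ne_zero (V⁄K : WeierstrassCurve.Affine K)
      (by
        change (V.map (algebraMap (ZMod p) K)).Δ ≠ 0
        rw [map_Δ]; exact (_root_.map_ne_zero _).2 V.isUnit_Δ.ne_zero)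
    have hdiff : ∀ Q : (V⁄K).Point, (V'.traceOfFrobenius - s) • Q = 0 := by
      intro Q
      set P := σ'⁻¹ • e.symm Q with hPdef
      have h := congrArg e (Weil.frobenius_sq_sub_trace_add V' σ' hσ' P)
      rw [map_add, map_sub, map_zsmul, map_zsmul, heσ, heσ, map_zero, hcard, Nat.cast_pow] at h
      have h1 := hrel (e P)
      have hQ : (σ ^ n) • e P = Q := by
        rw [← heσ, hPdef, smul_inv_smul, AddEquiv.apply_symm_apply]
      rw [hQ] at h h1
      rw [sub_zsmul, ← sub_eq_zero.2 (h1.trans h.symm)]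
      abel
    obtain ⟨Q, hQ⟩ := EC.zsmul_surjective (W := (V⁄K : WeierstrassCurve.Affine K))
      (sub_ne_zero.2 hne) P₀
    exact hP₀ (hQ.symm.trans (hdiff Q))
  have hps : (p : ℤ) ∣ s - 1 := by
    have h1 : (p : ℤ) ∣ V.traceOfFrobenius ^ n - 1 := by
      rw [← ZMod.intCast_zmod_eq_zero_iff_dvd, Int.cast_sub, Int.cast_pow, Int.cast_one, hn,
        ZMod.pow_card_sub_one_eq_one, sub_self]
      exact fun h => ha ((ZMod.intCast_zmod_eq_zero_iff_dvd _ _).1 h)
    have := dvd_add (hs hn0) h1
    simpa using this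
  -- a point of order `p` over `k'`
  have : Finite (V'⁄k').Point :=
    Finite.of_equiv _ (pointEquivOfEq (show V'.toAffine = (V'⁄k' : WeierstrassCurve.Affine k') by
      change _ = V'.map (algebraMap k' k')
      rw [Algebra.algebraMap_self, WeierstrassCurve.map_id])).toEquiv
  have hdvdcard : p ∣ Nat.card (V'⁄k').Point := by
    rw [natCard_point_baseChange_self, ← Int.natCast_dvd_natCast]
    have h : (V'.card : ℤ) = ((p : ℤ) ^ n + 1) - s := by
      have h := hsa
      rw [traceOfFrobenius, hcard] at h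
      push_cast at h
      linarith
    change (p : ℤ) ∣ (V'.card : ℤ)
    rw [h, show (p : ℤ) ^ n + 1 - s = (p : ℤ) ^ n - (s - 1) by ring]
    exact dvd_sub (dvd_pow_self _ hn0) hps
  obtain ⟨Q, hQ⟩ := exists_prime_addOrderOf_dvd_card' p hdvdcard
  refine ⟨e (Point.map (Algebra.ofId k' K) Q), fun h0 => ?_, ?_⟩
  · rw [AddEquiv.map_eq_zero_iff, map_eq_zero_iff _ (Point.map_injective _)] at h0
    rw [h0, addOrderOf_zero] at hQ
    exact hp.ne_one hQ.symm
  · have hpQ : p • Q = 0 := (congrArg (· • Q) hQ.symm).trans (addOrderOf_nsmul_eq_zero Q)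
    rw [← map_nsmul, ← map_nsmul, hpQ, map_zero, map_zero]

end

end Fermat.Agent.AtP
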