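/-
Valuations of the coordinates of the `p`-torsion points of an elliptic curve with good reduction at
the odd prime `p`, read off from the division polynomial and its reduction modulo `p`.
-/
import Fermat.Agent.AtP.DivPolyModP
import Fermat.Agent.EC.DivPolyPoint
import Fermat.Agent.ECRed.Good

set_option autoImplicit false
set_option maxHeartbeats 400000

open Polynomial WeierstrassCurve
open scoped WeierstrassCurve.Affine

namespace Fermat.Agent.AtP

local notation "Q̄" => AlgebraicClosure ℚ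

/-- The model over `ℚ̄` of a Weierstrass curve over `ℤ`. -/
noncomputable abbrev curveQbar (W : WeierstrassCurve ℤ) : WeierstrassCurve.Affine Q̄ :=
  ((W.map (Int.castRingHom ℚ))⁄Q̄)

theorem curveQbar_eq (W : WeierstrassCurve ℤ) :
    curveQbar W = W.map (Int.castRingHom Q̄) := by
  change (W.map (Int.castRingHom ℚ)).map (algebraMap ℚ Q̄) = _
  rw [WeierstrassCurve.map_map]
  exact congrArg W.map (RingHom.ext_int _ _)

variable {W : WeierstrassCurve ℤ} {p : ℕ} {A : ValuationSubring Q̄}

theorem Δ_ne_zero_of_isGoodPrimeFor (hgood : W.IsGoodPrimeFor p) : W.Δ ≠ 0 := fun h =>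
  hgood (h ▸ dvd_zero _)

theorem curveQbar_Δ_ne_zero (hΔ : W.Δ ≠ 0) : (curveQbar W).Δ ≠ 0 := by
  rw [curveQbar_eq, map_Δ]
  simpa using hΔ

theorem preΨ'_curveQbar (n : ℕ) :
    (curveQbar W).preΨ' n = (W.preΨ' n).map (Int.castRingHom Q̄) := by
  rw [curveQbar_eq, map_preΨ']

/-- The reduction modulo `p` of the `p`-division polynomial is nonzero. -/
theorem exists_not_dvd_coeff (hp : p.Prime) (hp2 : p ≠ 2) (hgood : W.IsGoodPrimeFor p) :
    ∃ k, ¬ (p : ℤ) ∣ (W.preΨ' p).coeff k := by
  have := Fact.mk hp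
  have h2 : (2 : ZMod p) ≠ 0 := by
    intro h
    have h' : ((2 : ℕ) : ZMod p) = 0 := by simpa using h
    exact hp2 ((Nat.prime_dvd_prime_iff_eq hp Nat.prime_two).1
      ((ZMod.natCast_eq_zero_iff _ _).1 h'))
  have hΔ : (W.reductionMod p).Δ ≠ 0 := by
    rw [WeierstrassCurve.reductionMod, map_Δ]
    exact fun h => hgood ((ZMod.intCast_zmod_eq_zero_iff_dvd _ _).1 h)
  have h := preΨ'_ne_zero_of_odd _ h2 hΔ (hp.odd_of_ne_two hp2)
  rw [WeierstrassCurve.reductionMod, map_preΨ'] at h
  contrapose! h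
  exact Polynomial.ext fun k => by
    rw [coeff_map, coeff_zero]
    exact (ZMod.intCast_zmod_eq_zero_iff_dvd _ _).2 (h k)

theorem natCast_valuation_lt_one (hA : A.LiesOverPrime p) : A.valuation (p : Q̄) < 1 :=
  (ValuationSubring.mem_nonunits_iff A).1 hA

theorem natCast_valuation_ne_zero (hp : p.Prime) : A.valuation (p : Q̄) ≠ 0 :=
  (_root_.map_ne_zero _).2 (Nat.cast_ne_zero.2 hp.ne_zero)

theorem intCast_valuation_le_one (n : ℤ) : A.valuation (n : Q̄) ≤ 1 :=
  (A.valuation_le_one_iff _).2 (intCast_mem A n)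

theorem intCast_valuation_le_of_dvd {n : ℤ} (h : (p : ℤ) ∣ n) :
    A.valuation (n : Q̄) ≤ A.valuation (p : Q̄) := by
  obtain ⟨m, rfl⟩ := h
  rw [Int.cast_mul, Int.cast_natCast, map_mul]
  exact mul_le_of_le_one_right' (intCast_valuation_le_one m)

theorem intCast_valuation_lt_one_iff (hp : p.Prime) (hA : A.LiesOverPrime p) (n : ℤ) :
    A.valuation (n : Q̄) < 1 ↔ (p : ℤ) ∣ n := by
  rw [← ValuationSubring.mem_nonunits_iff, Galois.intCast_mem_nonunits_iff hp hA]

/-- In the case of a constant reduction of the division polynomial all roots have value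
`|p|^(-1/d)`, `d = (p²-1)/2`. -/
theorem valuation_pow_mul_eq_one_of_const (hp : p.Prime) (hp2 : p ≠ 2)
    (hgood : W.IsGoodPrimeFor p) (hA : A.LiesOverPrime p)
    (hconst : ∀ k, k ≠ 0 → (p : ℤ) ∣ (W.preΨ' p).coeff k) {r : Q̄}
    (hr : ((curveQbar W).preΨ' p).eval r = 0) :
    1 < A.valuation r ∧ A.valuation r ^ ((p ^ 2 - 1) / 2) * A.valuation (p : Q̄) = 1 := by
  have hodd : ¬ Even p := Nat.not_even_iff_odd.2 (hp.odd_of_ne_two hp2)
  set v := A.valuation with hv
  set d := (p ^ 2 - 1) / 2 with hd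
  have hd0 : d ≠ 0 := by
    have h3 : 3 ≤ p := by
      rcases hp.two_le.eq_or_lt with h | h <;> omega
    have : 9 ≤ p ^ 2 := by nlinarith
    omega
  have hdeg : (W.preΨ' p).natDegree ≤ d := by
    have := W.natDegree_preΨ'_le p
    rwa [if_neg hodd] at this
  have hlead : (W.preΨ' p).coeff d = (p : ℤ) := by
    have := W.coeff_preΨ' p
    rwa [if_neg hodd, if_neg hodd] at this
  have h0 : ¬ (p : ℤ) ∣ (W.preΨ' p).coeff 0 := by
    obtain ⟨k, hk⟩ := exists_not_dvd_coeff hp hp2 hgood
    rcases eq_or_ne k 0 with rfl | hk0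
    · exact hk
    · exact absurd (hconst k hk0) hk
  have hc0 : v ((W.preΨ' p).coeff 0 : Q̄) = 1 :=
    le_antisymm (intCast_valuation_le_one _)
      (not_lt.1 fun h => h0 ((intCast_valuation_lt_one_iff hp hA _).1 h))
  set c : ℕ → Q̄ := fun k => ((W.preΨ' p).coeff k : Q̄) * r ^ k with hc
  have hsum : c 0 + ((∑ k ∈ Finset.Ico 1 d, c k) + c d) = 0 := by
    have hdeg' : ((W.preΨ' p).map (Int.castRingHom Q̄)).natDegree < d + 1 :=
      Nat.lt_succ_of_le (natDegree_map_le.trans hdeg)
    rw [preΨ'_curveQbar, eval_eq_sum_range' hdeg', Finset.sum_range_succ,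
      Finset.range_eq_Ico, Finset.sum_eq_sum_Ico_succ_bot (Nat.pos_of_ne_zero hd0)] at hr
    simp only [coeff_map, eq_intCast] at hr
    rw [← add_assoc]
    exact hr
  have hvc : ∀ k, k ≠ 0 → v (c k) ≤ v (p : Q̄) * v r ^ k := fun k hk => by
    rw [hc, map_mul, map_pow]
    exact mul_le_mul' (intCast_valuation_le_of_dvd (hconst k hk)) le_rfl
  have hcd : v (c d) = v (p : Q̄) * v r ^ d := by
    simp only [hc, hlead, Int.cast_natCast, map_mul, map_pow]
  have hc0' : v (c 0) = 1 := by
    simp only [hc, pow_zero, mul_one]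
    exact hc0
  have hr1 : 1 < v r := by
    by_contra! hle
    have hlt : v ((∑ k ∈ Finset.Ico 1 d, c k) + c d) < 1 := by
      have hterm : ∀ k, k ≠ 0 → v (c k) < 1 := fun k hk =>
        ((hvc k hk).trans (mul_le_of_le_one_right' (pow_le_one' hle k))).trans_lt
          (natCast_valuation_lt_one hA)
      exact Valuation.map_add_lt _ (Valuation.map_sum_lt _ one_ne_zero fun k hk =>
        hterm k (by have := (Finset.mem_Ico.1 hk).1; omega)) (hterm d hd0)
    rw [add_eq_zero_iff_eq_neg'.1 hsum, Valuation.map_neg, hc0'] at hlt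
    exact lt_irrefl _ hlt
  refine ⟨hr1, ?_⟩
  have hS : v (∑ k ∈ Finset.Ico 1 d, c k) < v (c d) := by
    have hpd : v (c d) ≠ 0 := by
      rw [hcd]
      exact mul_ne_zero (natCast_valuation_ne_zero hp) (pow_ne_zero _ (zero_lt_one.trans hr1).ne')
    refine Valuation.map_sum_lt _ hpd fun k hk => ?_
    obtain ⟨hk1, hk2⟩ := Finset.mem_Ico.1 hk
    refine (hvc k (by omega)).trans_lt ?_
    rw [hcd]
    exact mul_lt_mul_of_pos_left (pow_lt_pow_right₀ hr1 hk2)
      (zero_lt_iff.2 (natCast_valuation_ne_zero hp))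
  rw [mul_comm, ← hcd]
  by_contra hne
  have hmax := Valuation.map_add_of_distinct_val v (x := c d) (y := c 0) (by rwa [hc0'])
  have heq : c d + c 0 = -(∑ k ∈ Finset.Ico 1 d, c k) := by linear_combination hsum
  rw [heq, Valuation.map_neg] at hmax
  rw [hmax] at hS
  exact absurd hS (not_lt.2 (le_max_left _ _))

/-- If the division polynomial has a product decomposition with all linear factors `≡ 1` modulo
the maximal ideal, its higher coefficients are nonunits. -/
theorem valuation_coeff_prod_lt_one (s : Multiset Q̄) (hs : ∀ u ∈ s, A.valuation u < 1) :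
    (s.map fun u => 1 - C u * X).prod.coeff 0 = 1 ∧
      ∀ k, k ≠ 0 → A.valuation ((s.map fun u => 1 - C u * X).prod.coeff k) < 1 := by
  induction s using Multiset.induction with
  | empty => simp +contextual [coeff_one]
  | cons u t ih =>
    obtain ⟨h0, hk⟩ := ih fun w hw => hs w (Multiset.mem_cons_of_mem hw)
    rw [Multiset.map_cons, Multiset.prod_cons, sub_mul, one_mul, mul_assoc]
    refine ⟨by simp [h0], fun k hk0 => ?_⟩
    obtain ⟨j, rfl⟩ := Nat.exists_eq_succ_of_ne_zero hk0
    rw [coeff_sub, coeff_C_mul, coeff_X_mul]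
    refine (Valuation.map_sub _ _ _).trans_lt (max_lt (hk _ (Nat.succ_ne_zero j)) ?_)
    rw [map_mul]
    rcases eq_or_ne j 0 with rfl | hj
    · rw [h0, map_one, mul_one]; exact hs u (Multiset.mem_cons_self u t)
    · exact (mul_le_of_le_one_right' (hk j hj).le).trans_lt (hs u (Multiset.mem_cons_self u t))

theorem valuation_coeff_prod_le_one (s : Multiset Q̄) (hs : ∀ u ∈ s, A.valuation u ≤ 1) (k : ℕ) :
    A.valuation ((s.map fun u => X - C u).prod.coeff k) ≤ 1 := by
  induction s using Multiset.induction generalizing k with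
  | empty => rcases eq_or_ne k 0 with rfl | hk <;> simp [coeff_one, *]
  | cons u t ih =>
    have ih' := fun j => ih (fun w hw => hs w (Multiset.mem_cons_of_mem hw)) j
    rw [Multiset.map_cons, Multiset.prod_cons, sub_mul, coeff_sub, coeff_C_mul]
    refine (Valuation.map_sub _ _ _).trans (max_le ?_ ?_)
    · rcases k with _ | j
      · simp
      · rw [coeff_X_mul]; exact ih' j
    · rw [map_mul]
      exact mul_le_one' (hs u (Multiset.mem_cons_self u t)) (ih' k)

/-- If the reduction of the division polynomial is not constant, some root is integral. -/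
theorem exists_root_mem_of_not_const (hp : p.Prime) (hA : A.LiesOverPrime p)
    {k : ℕ} (hk : k ≠ 0) (hdvd : ¬ (p : ℤ) ∣ (W.preΨ' p).coeff k) :
    ∃ r ∈ A, ((curveQbar W).preΨ' p).eval r = 0 := by
  by_contra! hall
  set f := (curveQbar W).preΨ' p with hf
  have hf0 : f ≠ 0 := (curveQbar W).preΨ'_ne_zero (Nat.cast_ne_zero.2 hp.ne_zero)
  have hsplit : f.Splits := IsAlgClosed.splits f
  have hroots : ∀ r ∈ f.roots, 1 < A.valuation r ∧ r ≠ 0 := fun r hr => by
    have h : 1 < A.valuation r := not_le.1 fun h =>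
      hall r ((A.valuation_le_one_iff _).1 h) ((mem_roots hf0).1 hr)
    exact ⟨h, fun h0 => by simp [h0] at h⟩
  have hprod : f = C f.leadingCoeff * ((f.roots.map fun r => C (-r)).prod *
      ((f.roots.map fun r => r⁻¹).map fun u => 1 - C u * X).prod) := by
    conv_lhs => rw [hsplit.eq_prod_roots]
    rw [Multiset.map_map, ← Multiset.prod_map_mul]
    congr 2
    refine Multiset.map_congr rfl fun r hr => ?_
    have hr0 := (hroots r hr).2
    simp only [Function.comp_apply]
    rw [map_neg, mul_sub, mul_one, ← mul_assoc, neg_mul (C r), ← map_mul, mul_inv_cancel₀ hr0,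
      map_one]
    ring
  have hC : (f.roots.map fun r => C (-r)).prod = C (f.roots.map fun r => -r).prod := by
    rw [map_multiset_prod, Multiset.map_map]
    rfl
  rw [hC, ← mul_assoc, ← map_mul] at hprod
  set a := f.leadingCoeff * (f.roots.map fun r => -r).prod
  obtain ⟨hg0, hgk⟩ := valuation_coeff_prod_lt_one (A := A) (f.roots.map fun r => r⁻¹) (by
    intro u hu
    obtain ⟨r, hr, rfl⟩ := Multiset.mem_map.1 hu
    rw [map_inv₀, inv_lt_one₀ (zero_lt_one.trans (hroots r hr).1)]
    exact (hroots r hr).1)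
  have hcoeff : ∀ j, f.coeff j = ((W.preΨ' p).coeff j : Q̄) := fun j => by
    rw [hf, preΨ'_curveQbar, coeff_map, eq_intCast]
  have ha : A.valuation a ≤ 1 := by
    have h : a = f.coeff 0 := by rw [hprod, coeff_C_mul, hg0, mul_one]
    rw [h, hcoeff]
    exact intCast_valuation_le_one _
  refine hdvd ((intCast_valuation_lt_one_iff hp hA _).1 ?_)
  rw [← hcoeff, hprod, coeff_C_mul, map_mul]
  exact (mul_le_of_le_one_left' ha).trans_lt (hgk k hk)

/-- Some root of the division polynomial is not integral. -/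
theorem exists_root_not_mem (hp : p.Prime) (hp2 : p ≠ 2) (hgood : W.IsGoodPrimeFor p)
    (hA : A.LiesOverPrime p) : ∃ r ∉ A, ((curveQbar W).preΨ' p).eval r = 0 := by
  by_contra! hall
  set f := (curveQbar W).preΨ' p with hf
  have hpQ : (p : Q̄) ≠ 0 := Nat.cast_ne_zero.2 hp.ne_zero
  have hf0 : f ≠ 0 := (curveQbar W).preΨ'_ne_zero hpQ
  have hsplit : f.Splits := IsAlgClosed.splits f
  have hlead : f.leadingCoeff = (p : Q̄) := by
    rw [hf, (curveQbar W).leadingCoeff_preΨ' hpQ,
      if_neg (Nat.not_even_iff_odd.2 (hp.odd_of_ne_two hp2))]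
  obtain ⟨k, hk⟩ := exists_not_dvd_coeff hp hp2 hgood
  refine hk ((intCast_valuation_lt_one_iff hp hA _).1 ?_)
  have hcoeff : f.coeff k = ((W.preΨ' p).coeff k : Q̄) := by
    rw [hf, preΨ'_curveQbar, coeff_map, eq_intCast]
  rw [← hcoeff, hsplit.eq_prod_roots, coeff_C_mul, map_mul, hlead]
  refine (mul_le_of_le_one_right' (valuation_coeff_prod_le_one _ (fun r hr => ?_) k)).trans_lt
    (natCast_valuation_lt_one hA)
  refine (A.valuation_le_one_iff _).2 (by_contra fun h => ?_)
  exact hall r h ((mem_roots hf0).1 hr)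

/-- The valuation of `y` at a non-integral point: `|y|² = |x|³`. -/
theorem valuation_y_sq {x y : Q̄} (hP : (curveQbar W).Equation x y) (hx : 1 < A.valuation x) :
    A.valuation y ^ 2 = A.valuation x ^ 3 := by
  rw [curveQbar_eq, Affine.equation_iff] at hP
  simp only [WeierstrassCurve.map_a₁, WeierstrassCurve.map_a₂, WeierstrassCurve.map_a₃,
    WeierstrassCurve.map_a₄, WeierstrassCurve.map_a₆, eq_intCast] at hP
  set v := A.valuation with hv
  have ha : ∀ n : ℤ, v (n : Q̄) ≤ 1 := intCast_valuation_le_one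
  have hx0 : 0 < v x := zero_lt_one.trans hx
  have hrest : v ((W.a₂ : Q̄) * x ^ 2 + ((W.a₄ : Q̄) * x + (W.a₆ : Q̄))) ≤ v x ^ 2 := by
    refine Valuation.map_add_le _ ?_ (Valuation.map_add_le _ ?_ ?_)
    · rw [map_mul, map_pow]; exact mul_le_of_le_one_left' (ha _)
    · rw [map_mul]; exact (mul_le_of_le_one_left' (ha _)).trans (le_self_pow hx.le two_ne_zero)
    · exact (ha _).trans (one_le_pow₀ hx.le)
  have h23 : v x ^ 2 < v x ^ 3 := pow_lt_pow_right₀ hx (by norm_num)
  have hR : v (x ^ 3 + ((W.a₂ : Q̄) * x ^ 2 + ((W.a₄ : Q̄) * x + (W.a₆ : Q̄)))) = v x ^ 3 := by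
    rw [Valuation.map_add_eq_of_lt_left _ (by rw [map_pow]; exact hrest.trans_lt h23), map_pow]
  have heq : y ^ 2 + ((W.a₁ : Q̄) * x * y + (W.a₃ : Q̄) * y) =
      x ^ 3 + ((W.a₂ : Q̄) * x ^ 2 + ((W.a₄ : Q̄) * x + (W.a₆ : Q̄))) := by linear_combination hP
  have hlow : v ((W.a₁ : Q̄) * x * y + (W.a₃ : Q̄) * y) ≤ v x * v y := by
    refine Valuation.map_add_le _ ?_ ?_
    · rw [map_mul, map_mul, mul_assoc]; exact mul_le_of_le_one_left' (ha _)
    · rw [map_mul]; exact mul_le_mul' ((ha _).trans hx.le) le_rfl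
  have hyx : v x < v y := by
    by_contra! hle
    have h1 : v (y ^ 2 + ((W.a₁ : Q̄) * x * y + (W.a₃ : Q̄) * y)) ≤ v x ^ 2 := by
      refine Valuation.map_add_le _ ?_ (hlow.trans ?_)
      · rw [map_pow]; exact pow_le_pow_left' hle 2
      · rw [pow_two]; exact mul_le_mul' le_rfl hle
    rw [heq, hR] at h1
    exact absurd h23 (not_lt.2 h1)
  have hlt : v ((W.a₁ : Q̄) * x * y + (W.a₃ : Q̄) * y) < v (y ^ 2) := by
    rw [map_pow, pow_two]
    exact hlow.trans_lt (mul_lt_mul_of_pos_right hyx (hx0.trans hyx))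
  rw [← hR, ← heq, Valuation.map_add_eq_of_lt_left _ hlt, map_pow]

/-- The roots of the `p`-division polynomial are the `x`-coordinates of the nonzero `p`-torsion. -/
theorem nsmul_some_eq_zero_iff_root (hp : p.Prime) (hp2 : p ≠ 2) {x y : Q̄}
    (h : (curveQbar W).Nonsingular x y) :
    p • (Affine.Point.some x y h) = 0 ↔ ((curveQbar W).preΨ' p).eval x = 0 := by
  rw [EC.nsmul_some_eq_zero_iff_ΨSq, (curveQbar W).ΨSq_ofNat,
    if_neg (Nat.not_even_iff_odd.2 (hp.odd_of_ne_two hp2)), mul_one, eval_pow,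
    pow_eq_zero_iff two_ne_zero]

/-- Every root of the `p`-division polynomial lifts to a `p`-torsion point. -/
theorem exists_point_of_root (hp : p.Prime) (hp2 : p ≠ 2) (hΔ : W.Δ ≠ 0) {x : Q̄}
    (hx : ((curveQbar W).preΨ' p).eval x = 0) :
    ∃ (y : Q̄) (h : (curveQbar W).Nonsingular x y), p • (Affine.Point.some x y h) = 0 := by
  obtain ⟨y, hy⟩ := IsAlgClosed.exists_root
    (X ^ 2 + C ((curveQbar W).a₁ * x + (curveQbar W).a₃) * X -
      C (x ^ 3 + (curveQbar W).a₂ * x ^ 2 + (curveQbar W).a₄ * x + (curveQbar W).a₆)) (by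
      rw [degree_sub_eq_left_of_degree_lt, degree_add_eq_left_of_degree_lt, degree_X_pow]
      · decide
      · rw [degree_X_pow]
        exact (degree_C_mul_X_le _).trans_lt (by decide)
      · rw [degree_add_eq_left_of_degree_lt, degree_X_pow]
        · exact degree_C_le.trans_lt (by decide)
        · rw [degree_X_pow]
          exact (degree_C_mul_X_le _).trans_lt (by decide))
  have heq : (curveQbar W).Equation x y := by
    simp only [IsRoot, eval_sub, eval_add, eval_mul, eval_pow, eval_C, eval_X] at hy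
    rw [Affine.equation_iff]
    linear_combination hy
  exact ⟨y, ((curveQbar W).equation_iff_nonsingular_of_Δ_ne_zero (curveQbar_Δ_ne_zero hΔ)).1 heq,
    (nsmul_some_eq_zero_iff_root hp hp2 _).2 hx⟩

end Fermat.Agent.AtP
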