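/-
The reduced `p`-division polynomial is constant exactly when `p` divides `a_p`.
-/
import Fermat.Agent.AtP.HasTorsion
import Fermat.Agent.AtP.Torsion

set_option autoImplicit false
set_option maxHeartbeats 400000

open Polynomial WeierstrassCurve WeierstrassCurve.Affine
open scoped WeierstrassCurve.Affine

namespace Fermat.Agent.AtP

variable {W : WeierstrassCurve ℤ} {p : ℕ}

theorem const_iff_dvd_apOfModel [Fact p.Prime] (hp2 : p ≠ 2) (hgood : W.IsGoodPrimeFor p) :
    (∀ k, k ≠ 0 → (p : ℤ) ∣ (W.preΨ' p).coeff k) ↔ (p : ℤ) ∣ W.apOfModel p := by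
  classical
  have hp : p.Prime := Fact.out
  set V := W.reductionMod p with hV
  have hVell : V.IsElliptic := (isElliptic_iff _).2 (isUnit_iff_ne_zero.2 (by
    rw [hV, WeierstrassCurve.reductionMod, map_Δ]
    exact fun h => hgood ((ZMod.intCast_zmod_eq_zero_iff_dvd _ _).1 h)))
  let K := AlgebraicClosure (ZMod p)
  have hΔK : (V⁄K : WeierstrassCurve.Affine K).Δ ≠ 0 := by
    change (V.map (algebraMap (ZMod p) K)).Δ ≠ 0
    rw [map_Δ]
    exact (_root_.map_ne_zero _).2 V.isUnit_Δ.ne_zero
  set f : K[X] := (V⁄K : WeierstrassCurve.Affine K).preΨ' p with hf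
  have hfmap : f = (W.preΨ' p).map (Int.castRingHom K) := by
    change (V.map (algebraMap (ZMod p) K)).preΨ' p = _
    rw [hV, WeierstrassCurve.reductionMod, WeierstrassCurve.map_map, map_preΨ']
    exact congrArg (fun g => Polynomial.map g (W.preΨ' p)) (RingHom.ext_int _ _)
  have hf0 : f ≠ 0 := by
    refine preΨ'_ne_zero_of_odd _ ?_ hΔK (hp.odd_of_ne_two hp2)
    intro h
    have h' : ((2 : ℕ) : K) = 0 := by simpa using h
    rw [CharP.cast_eq_zero_iff K p] at h'
    exact hp2 ((Nat.prime_dvd_prime_iff_eq hp Nat.prime_two).1 h')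
  have hcoeff : ∀ k, f.coeff k = 0 ↔ (p : ℤ) ∣ (W.preΨ' p).coeff k := fun k => by
    rw [hfmap, coeff_map, eq_intCast, CharP.intCast_eq_zero_iff K p]
  have hpt : ∀ (x y : K) (h : (V⁄K : WeierstrassCurve.Affine K).Nonsingular x y),
      p • (Point.some x y h) = 0 ↔ f.eval x = 0 := fun x y h => by
    rw [EC.nsmul_some_eq_zero_iff_ΨSq, ΨSq_ofNat,
      if_neg (Nat.not_even_iff_odd.2 (hp.odd_of_ne_two hp2)), mul_one, eval_pow,
      pow_eq_zero_iff two_ne_zero]
  constructor
  · intro hconst
    by_contra hap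
    obtain ⟨P, hP0, hP⟩ := exists_point_of_not_dvd_trace (K := K) V hap
    cases P with
    | zero => exact hP0 rfl
    | some x y h =>
      have hx := (hpt x y h).1 hP
      have hC : f = C (f.coeff 0) := Polynomial.ext fun k => by
        rcases eq_or_ne k 0 with rfl | hk
        · simp
        · rw [(hcoeff k).2 (hconst k hk), coeff_C, if_neg hk]
      rw [hC, eval_C] at hx
      rw [hx, map_zero] at hC
      exact hf0 hC
  · intro hap k hk
    by_contra hdvd
    have hdeg : f.degree ≠ 0 := fun h => hdvd ((hcoeff k).1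
      (coeff_eq_zero_of_degree_lt (h ▸ (by exact_mod_cast Nat.pos_of_ne_zero hk))))
    obtain ⟨x, hx⟩ := IsAlgClosed.exists_root f hdeg
    obtain ⟨y, h⟩ := exists_nonsingular _ hΔK x
    exact Point.some_ne_zero h (eq_zero_of_dvd_trace (K := K) V hap _ ((hpt x y h).2 hx))

end Fermat.Agent.AtP
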