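/-
An element fixed by inertia at a prime `P` over `p` of a Galois number field is, up to `P`-units, a
power of `p`: the inertia field is unramified over `ℚ` at `P`.
-/
import Mathlib.NumberTheory.RamificationInertia.HilbertTheory
import Mathlib.NumberTheory.NumberField.Basic
import Mathlib.RingTheory.RamificationInertia.Ramification

set_option autoImplicit false
set_option maxHeartbeats 200000

open NumberField Pointwise

namespace Fermat.Agent.AtP

/-- In a Dedekind domain, if `p ∈ P` but `p ∉ P²`, every nonzero `c` is a power of `p` up to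
`P`-units. -/
theorem exists_pow_mul_unit_of_notMem_sq {R : Type*} [CommRing R] [IsDedekindDomain R]
    (P : Ideal R) [P.IsPrime] {p : R} (hp : p ∈ P) (hp0 : p ≠ 0) (hp2 : p ∉ P ^ 2)
    {c : R} (hc : c ≠ 0) : ∃ (m : ℕ) (s t : R), s ∉ P ∧ t ∉ P ∧ s * c = p ^ m * t := by
  classical
  have hP0 : P ≠ ⊥ := fun h => hp0 (by rwa [h, Ideal.mem_bot] at hp)
  have hPp : Prime P := Ideal.prime_of_isPrime hP0 inferInstance
  have : P.IsMaximal := Ideal.IsPrime.isMaximal inferInstance hP0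
  obtain ⟨I, hPI, hI⟩ := Ideal.eq_prime_pow_mul_coprime
    (mt Ideal.span_singleton_eq_bot.1 hc) P
  generalize (UniqueFactorizationMonoid.normalizedFactors (Ideal.span {c})).count P = m at hI
  obtain ⟨J, hJ⟩ : P ∣ Ideal.span {p} :=
    Ideal.dvd_iff_le.2 ((Ideal.span_singleton_le_iff_mem _).2 hp)
  have hJP : ¬ J ≤ P := by
    intro hle
    refine hp2 ((Ideal.span_singleton_le_iff_mem _).1 ?_)
    rw [hJ, pow_two]
    exact Ideal.mul_mono le_rfl hle
  obtain ⟨s, hsJ, hsP⟩ := SetLike.not_le_iff_exists.1 hJP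
  have hsm : s ^ m ∉ P := mt (Ideal.IsPrime.mem_of_pow_mem inferInstance m) hsP
  have hmem : s ^ m * c ∈ Ideal.span {p ^ m} := by
    rw [← Ideal.span_singleton_pow, hJ, mul_pow, mul_comm (P ^ m) (J ^ m)]
    refine Ideal.mul_mem_mul (Ideal.pow_mem_pow hsJ m) ?_
    have h : c ∈ P ^ m * I := hI ▸ Ideal.mem_span_singleton_self c
    exact (Ideal.mul_le_left (I := P ^ m) (J := I) : P ^ m * I ≤ P ^ m) h
  obtain ⟨t, ht⟩ := Ideal.mem_span_singleton.1 hmem
  refine ⟨m, s ^ m, t, hsm, fun htP => ?_, ht⟩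
  have h1 : P ^ (m + 1) ∣ Ideal.span {s ^ m} * Ideal.span {c} := by
    rw [Ideal.span_singleton_mul_span_singleton, ht, Ideal.dvd_iff_le,
      Ideal.span_singleton_le_iff_mem, pow_succ]
    exact Ideal.mul_mem_mul (Ideal.pow_mem_pow hp m) htP
  have h2 : P ^ (m + 1) ∣ Ideal.span {c} :=
    hPp.pow_dvd_of_dvd_mul_left _ (by
      rwa [Ideal.dvd_iff_le, Ideal.span_singleton_le_iff_mem]) h1
  rw [hI, pow_succ, mul_dvd_mul_iff_left (pow_ne_zero m hP0)] at h2
  have h3 : P ⊔ I ≤ P := sup_le le_rfl (Ideal.dvd_iff_le.1 h2)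
  rw [hPI, top_le_iff] at h3
  exact (inferInstance : P.IsPrime).ne_top h3

variable {L : Type*} [Field L] [NumberField L] [IsGalois ℚ L]

/-- An element of the inertia field at `P ∋ p` is, up to `P`-units, a power of `p`. -/
theorem exists_pow_mul_unit_of_inertia_fixed (P : Ideal (𝓞 L)) [P.IsPrime] {p : ℕ}
    (hp : p.Prime) (hpP : (p : 𝓞 L) ∈ P) {c : 𝓞 L} (hc : c ≠ 0)
    (hfix : ∀ σ ∈ P.inertia Gal(L/ℚ), σ • c = c) :
    ∃ (m : ℕ) (s t : 𝓞 L), s ∉ P ∧ t ∉ P ∧ s * c = (p : 𝓞 L) ^ m * t := by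
  classical
  have hP0 : P ≠ ⊥ := fun h => Nat.cast_ne_zero.2 hp.ne_zero (by rwa [h, Ideal.mem_bot] at hpP)
  have : P.IsMaximal := Ideal.IsPrime.isMaximal inferInstance hP0
  let I := P.inertia Gal(L/ℚ)
  let E : IntermediateField ℚ L := FixedPoints.intermediateField I
  have hIE : IsGaloisGroup I E L := IsGaloisGroup.subgroup Gal(L/ℚ) ℚ L I
  have hQ : IsGaloisGroup Gal(L/ℚ) ℤ (𝓞 L) := IsGaloisGroup.of_isFractionRing _ ℤ (𝓞 L) ℚ L
  have hE : IsGaloisGroup I (𝓞 E) (𝓞 L) := IsGaloisGroup.of_isFractionRing _ (𝓞 E) (𝓞 L) E L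
  let q : Ideal (𝓞 E) := P.under (𝓞 E)
  have hqP : P.LiesOver q := ⟨rfl⟩
  have hpq : (p : 𝓞 E) ∈ q := by
    show algebraMap (𝓞 E) (𝓞 L) (p : 𝓞 E) ∈ P
    rwa [map_natCast]
  let r : Ideal ℤ := P.under ℤ
  have hrP : P.LiesOver r := ⟨rfl⟩
  have hrq : q.LiesOver r := Ideal.LiesOver.tower_bot P q r
  have hr0 : r ≠ ⊥ := by
    intro h
    have h1 : (p : ℤ) ∈ r := by
      show algebraMap ℤ (𝓞 L) (p : ℤ) ∈ P
      rwa [map_natCast]
    rw [h, Ideal.mem_bot, Nat.cast_eq_zero] at h1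
    exact hp.ne_zero h1
  have hq0 : q ≠ ⊥ := fun h => Nat.cast_ne_zero.2 hp.ne_zero (by rwa [h, Ideal.mem_bot] at hpq)
  have : q.IsMaximal := Ideal.IsPrime.isMaximal inferInstance hq0
  have : r.IsMaximal := Ideal.IsPrime.isMaximal inferInstance hr0
  have : Finite (ℤ ⧸ r) := Ring.HasFiniteQuotients.finiteQuotient hr0
  have : Finite ((𝓞 E) ⧸ q) := Ring.HasFiniteQuotients.finiteQuotient hq0
  have hcardQ : Nat.card I = P.ramificationIdx ℤ := by
    rw [← Ideal.ramificationIdxIn_eq_ramificationIdx r P Gal(L/ℚ),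
      ← Ideal.card_inertia_eq_ramificationIdxIn (G := Gal(L/ℚ)) r P]
  have hcardE : Nat.card (P.inertia I) = P.ramificationIdx (𝓞 E) := by
    rw [← Ideal.ramificationIdxIn_eq_ramificationIdx q P I,
      ← Ideal.card_inertia_eq_ramificationIdxIn (G := I) q P]
  have htop : P.inertia I = (⊤ : Subgroup I) := eq_top_iff.2 fun σ _ => σ.2
  rw [htop, Subgroup.card_top] at hcardE
  have he : q.ramificationIdx ℤ = 1 := by
    have h := Ideal.ramificationIdx_tower (R := ℤ) q P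
    rw [← hcardQ, ← hcardE] at h
    exact (Nat.mul_eq_right Nat.card_pos.ne').1 h.symm
  have hmap : Ideal.map (algebraMap ℤ (𝓞 E)) r ≤ q := Ideal.map_le_iff_le_comap.2 (hrq.over.le)
  have hp2 : (p : 𝓞 E) ∉ q ^ 2 := by
    intro h
    have h1 : Ideal.ramificationIdx' r q = 1 :=
      (Ideal.ramificationIdx'_eq_ramificationIdx r q hr0).trans he
    refine (Ideal.ramificationIdx'_ne_one_iff hmap).2 ?_ h1
    have hr : r = Ideal.span {(p : ℤ)} := by
      have hmax : (Ideal.span {(p : ℤ)}).IsMaximal :=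
        PrincipalIdealRing.isMaximal_of_irreducible (Nat.prime_iff_prime_int.1 hp).irreducible
      refine (hmax.eq_of_le (Ideal.IsPrime.ne_top inferInstance) ?_).symm
      rw [Ideal.span_singleton_le_iff_mem]
      show algebraMap ℤ (𝓞 L) (p : ℤ) ∈ P
      rwa [map_natCast]
    rw [hr, Ideal.map_span, Set.image_singleton, map_natCast, Ideal.span_singleton_le_iff_mem]
    exact h
  obtain ⟨c', hc'⟩ := hE.isInvariant.isInvariant c fun σ => hfix σ σ.2
  obtain ⟨m, s, t, hs, ht, hst⟩ := exists_pow_mul_unit_of_notMem_sq q hpq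
    (Nat.cast_ne_zero.2 hp.ne_zero) hp2 (c := c') (fun h => hc (by rw [← hc', h, map_zero]))
  refine ⟨m, algebraMap _ _ s, algebraMap _ _ t, hs, ht, ?_⟩
  rw [← hc', ← map_mul, hst, map_mul, map_pow, map_natCast]

end Fermat.Agent.AtP
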