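/-
The inertia group at a place `A` of `ℚ̄` over `p` surjects onto the inertia groups of the finite
Galois layers; consequently the value of an element fixed by inertia is an integral power of the
value of `p`.
-/
import Fermat.Agent.AtP.InertiaField
import Fermat.Agent.Galois.Frobenius
import Fermat.Prelude.Def_FLTPrelim_Ramification
import Mathlib.RingTheory.Invariant.Profinite
import Mathlib.FieldTheory.Galois.Profinite

set_option autoImplicit false
set_option maxHeartbeats 400000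

open Pointwise

namespace Fermat.Agent.AtP

section lift

variable {G B : Type*} [Group G] [CommRing B] [MulSemiringAction G B] [TopologicalSpace G]
  [CompactSpace G] [TotallyDisconnectedSpace G] [IsTopologicalGroup G] [TopologicalSpace B]
  [DiscreteTopology B] [ContinuousSMul G B]

/-- An element acting trivially modulo `Q` on the invariants of a closed subgroup `H` differs from
an element of the inertia group of `Q` by an element of `H`. -/
theorem exists_mul_mem_inertia (H : Subgroup G) (hH : IsClosed (H : Set G)) (Q : Ideal B)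
    [Q.IsPrime] {σ : G} (hσ : ∀ x : B, (∀ h ∈ H, h • x = x) → σ • x - x ∈ Q) :
    ∃ h ∈ H, σ * h ∈ Q.inertia G := by
  let B₀ := FixedPoints.subalgebra ℤ B H
  have : CompactSpace H := isCompact_iff_compactSpace.1 hH.isCompact
  have : Algebra.IsInvariant B₀ B H := ⟨fun x hx => ⟨⟨x, hx⟩, rfl⟩⟩
  have hcomm : SMulCommClass H B₀ B := ⟨fun g a b => by
    change g • ((a : B) * b) = (a : B) * g • b
    rw [smul_mul', a.2 g]⟩
  have hunder : (σ⁻¹ • Q).under B₀ = Q.under B₀ := by
    ext x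
    have hx := hσ x fun h hh => x.2 ⟨h, hh⟩
    change (x : B) ∈ σ⁻¹ • Q ↔ (x : B) ∈ Q
    rw [Ideal.mem_pointwise_smul_iff_inv_smul_mem, inv_inv]
    constructor <;> intro h
    · simpa using Q.sub_mem h hx
    · simpa using Q.add_mem hx h
  obtain ⟨h₁, hQ⟩ :=
    Algebra.IsInvariant.exists_smul_of_under_eq_of_profinite (G := H) (σ⁻¹ • Q) Q hunder
  set τ : G := σ * ((h₁ : G))⁻¹ with hτ
  have hτQ : τ • Q = Q := by
    have hQ' : Q = (h₁ : G) • σ⁻¹ • Q := hQ
    conv_lhs => rw [hQ']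
    rw [hτ, mul_smul, inv_smul_smul, smul_inv_smul]
  let P := Q.under B₀
  have : Q.LiesOver P := ⟨rfl⟩
  let f : B ≃+* B := MulSemiringAction.toRingEquiv G B τ
  have hfQ : Q = Q.map (f : B →+* B) := by
    conv_lhs => rw [← hτQ]
    rfl
  let α₀ : (B ⧸ Q) ≃+* (B ⧸ Q) := Ideal.quotientEquiv Q Q f hfQ
  let α : (B ⧸ Q) ≃ₐ[B₀ ⧸ P] (B ⧸ Q) := AlgEquiv.ofRingEquiv (f := α₀) (by
    intro y
    obtain ⟨x, rfl⟩ := Ideal.Quotient.mk_surjective y
    change Ideal.Quotient.mk Q (τ • (x : B)) = Ideal.Quotient.mk Q (x : B)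
    rw [hτ, mul_smul, show ((h₁ : G))⁻¹ • (x : B) = x from x.2 h₁⁻¹, Ideal.Quotient.eq]
    exact hσ x fun h hh => x.2 ⟨h, hh⟩)
  obtain ⟨h₂, hα⟩ := Ideal.Quotient.stabilizerHom_surjective_of_profinite (G := H) P Q α
  refine ⟨((h₁ : G))⁻¹ * (((h₂ : H) : G))⁻¹, H.mul_mem (H.inv_mem h₁.2) (H.inv_mem h₂.1.2),
    fun x => ?_⟩
  rw [← mul_assoc, ← hτ, mul_smul]
  set y := (((h₂ : H) : G))⁻¹ • x with hy
  have h := DFunLike.congr_fun hα (Ideal.Quotient.mk Q y)
  change Ideal.Quotient.mk Q ((h₂ : H) • y) = Ideal.Quotient.mk Q (τ • y) at h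
  rw [Ideal.Quotient.eq] at h
  have hx : (h₂ : H) • y = x := smul_inv_smul ((h₂ : H) : G) x
  rw [hx] at h
  simpa using Q.neg_mem h

end lift

local notation "Q̄" => AlgebraicClosure ℚ
local notation "Zbar" => integralClosure ℤ (AlgebraicClosure ℚ)

/-- Membership in the inertia group at a valuation subring, in terms of residues. -/
theorem mem_inertiaSubgroupIn_iff {K L : Type*} [Field K] [Field L] [Algebra K L]
    (A : ValuationSubring L) (σ : L ≃ₐ[K] L) :
    σ ∈ A.inertiaSubgroupIn K ↔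
      σ ∈ A.decompositionSubgroup K ∧ ∀ a ∈ A, σ a - a ∈ A.nonunits := by
  constructor
  · rintro ⟨⟨g, hg⟩, hker, rfl⟩
    refine ⟨hg, fun a ha => ?_⟩
    have h := RingEquiv.congr_fun (MonoidHom.mem_ker.1 hker) (IsLocalRing.residue A ⟨a, ha⟩)
    change (⟨g, hg⟩ : A.decompositionSubgroup K) • IsLocalRing.residue A ⟨a, ha⟩ = _ at h
    rw [← IsLocalRing.ResidueField.residue_smul] at h
    change IsLocalRing.residue A _ = IsLocalRing.residue A ⟨a, ha⟩ at h
    rw [← sub_eq_zero, ← map_sub, IsLocalRing.residue_eq_zero_iff] at h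
    exact ValuationSubring.coe_mem_nonunits_iff.2 h
  · rintro ⟨hg, hres⟩
    refine ⟨⟨σ, hg⟩, MonoidHom.mem_ker.2 (RingEquiv.ext fun r => ?_), rfl⟩
    obtain ⟨⟨a, ha⟩, rfl⟩ := IsLocalRing.residue_surjective r
    change (⟨σ, hg⟩ : A.decompositionSubgroup K) • IsLocalRing.residue A ⟨a, ha⟩ =
      IsLocalRing.residue A ⟨a, ha⟩
    rw [← IsLocalRing.ResidueField.residue_smul, ← sub_eq_zero, ← map_sub,
      IsLocalRing.residue_eq_zero_iff, ← ValuationSubring.coe_mem_nonunits_iff]
    exact hres a ha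

theorem valuation_eq_one {L : Type*} [Field L] {A : ValuationSubring L} {x : L} (hx : x ∈ A)
    (hx' : x ∉ A.nonunits) : A.valuation x = 1 := by
  rcases ((A.valuation_le_one_iff x).2 hx).eq_or_lt with h | h
  · exact h
  · exact absurd ((ValuationSubring.mem_nonunits_iff A).2 h) hx'

/-- The centre of a valuation subring of `ℚ̄` on the ring of algebraic integers. -/
noncomputable def centre (A : ValuationSubring Q̄) : Ideal Zbar :=
  (IsLocalRing.maximalIdeal A).comap
    ({ toFun := fun x => ⟨(x : Q̄), Galois.mem_valuationSubring_of_isIntegral A x.2⟩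
       map_one' := rfl
       map_mul' := fun _ _ => rfl
       map_zero' := rfl
       map_add' := fun _ _ => rfl } : Zbar →+* A)

theorem mem_centre_iff (A : ValuationSubring Q̄) (x : Zbar) :
    x ∈ centre A ↔ (x : Q̄) ∈ A.nonunits := by
  rw [centre, Ideal.mem_comap, ← ValuationSubring.coe_mem_nonunits_iff]
  rfl

instance centre_isPrime (A : ValuationSubring Q̄) : (centre A).IsPrime :=
  Ideal.comap_isPrime _ _

/-- An element of the inertia group of the centre preserves `A` and fixes its residues. -/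
theorem apply_mem_of_mem_inertia_centre (A : ValuationSubring Q̄) {σ : Q̄ ≃ₐ[ℚ] Q̄}
    (hσ : σ ∈ (centre A).inertia (Q̄ ≃ₐ[ℚ] Q̄)) {a : Q̄} (ha : a ∈ A) :
    σ a ∈ A ∧ σ a - a ∈ A.nonunits := by
  have hB : ∀ b : Q̄, IsIntegral ℤ b → σ b - b ∈ A.nonunits := fun b hb => by
    have h := (mem_centre_iff A _).1 (hσ ⟨b, hb⟩)
    exact h
  obtain ⟨b, s, hb, hs, hsu, hbs⟩ := Galois.exists_integral_num_den A ha
  have hs1 : A.valuation s = 1 :=
    valuation_eq_one (Galois.mem_valuationSubring_of_isIntegral A hs) hsu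
  have hds : A.valuation (σ s - s) < 1 := (ValuationSubring.mem_nonunits_iff A).1 (hB s hs)
  have hdb : A.valuation (σ b - b) < 1 := (ValuationSubring.mem_nonunits_iff A).1 (hB b hb)
  have hσs : A.valuation (σ s) = 1 := by
    rw [← sub_add_cancel (σ s) s, Valuation.map_add_eq_of_lt_right _ (by rw [hs1]; exact hds),
      hs1]
  have hσbs : σ a * σ s = σ b := by rw [← map_mul, hbs]
  have hb1 : A.valuation (σ b) ≤ 1 := (A.valuation_le_one_iff _).2
    (Galois.mem_valuationSubring_of_isIntegral A (hb.map σ.toAlgHom))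
  refine ⟨(A.valuation_le_one_iff _).1 ?_, (ValuationSubring.mem_nonunits_iff A).2 ?_⟩
  · rwa [← hσbs, map_mul, hσs, mul_one] at hb1
  have hd : (σ a - a) * σ s = (σ b - b) - a * (σ s - s) := by
    rw [← hσbs, ← hbs]; ring
  calc A.valuation (σ a - a) = A.valuation ((σ a - a) * σ s) := by rw [map_mul, hσs, mul_one]
    _ < 1 := by
      rw [hd]
      refine (A.valuation.map_sub _ _).trans_lt (max_lt hdb ?_)
      rw [map_mul]
      exact (mul_le_of_le_one_left' ((A.valuation_le_one_iff a).2 ha)).trans_lt hds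

/-- The inertia group of the centre is contained in the inertia group of the valuation subring. -/
theorem mem_inertiaSubgroupIn_of_mem_inertia_centre (A : ValuationSubring Q̄)
    {σ : Q̄ ≃ₐ[ℚ] Q̄} (hσ : σ ∈ (centre A).inertia (Q̄ ≃ₐ[ℚ] Q̄)) :
    σ ∈ A.inertiaSubgroupIn ℚ := by
  refine (mem_inertiaSubgroupIn_iff A σ).2
    ⟨?_, fun a ha => (apply_mem_of_mem_inertia_centre A hσ ha).2⟩
  rw [MulAction.mem_stabilizer_iff]
  ext x
  constructor
  · rintro ⟨y, hy, rfl⟩
    exact (apply_mem_of_mem_inertia_centre A hσ hy).1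
  · intro hx
    exact ⟨σ⁻¹ x, (apply_mem_of_mem_inertia_centre A (inv_mem hσ) hx).1, σ.apply_symm_apply x⟩

theorem valuation_intCast_eq_pow {p : ℕ} (hp : p.Prime) {A : ValuationSubring Q̄}
    (hA : A.LiesOverPrime p) {n : ℤ} (hn : n ≠ 0) :
    ∃ k : ℕ, A.valuation (n : Q̄) = A.valuation (p : Q̄) ^ k := by
  obtain ⟨k, n', hn', hd⟩ :=
    Nat.exists_eq_pow_mul_and_not_dvd (Int.natAbs_ne_zero.2 hn) p hp.ne_one
  refine ⟨k, ?_⟩
  have h1 : A.valuation (n' : Q̄) = 1 := by
    refine valuation_eq_one (natCast_mem A n') fun h => hn' ?_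
    have h' : ((n' : ℤ) : Q̄) ∈ A.nonunits := by rwa [Int.cast_natCast]
    exact Int.natCast_dvd_natCast.1 ((Galois.intCast_mem_nonunits_iff hp hA (n' : ℤ)).1 h')
  have hv : A.valuation (n : Q̄) = A.valuation (n.natAbs : Q̄) := by
    rcases Int.natAbs_eq n with h | h
    · conv_lhs => rw [h]
      rw [Int.cast_natCast]
    · conv_lhs => rw [h]
      rw [Int.cast_neg, Int.cast_natCast, Valuation.map_neg]
  rw [hv, hd, Nat.cast_mul, Nat.cast_pow, map_mul, map_pow, h1, mul_one]

/-- The value of an element fixed by the inertia group at `A` is an integral power of the value of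
`p`: the inertia field is unramified over `ℚ`. -/
theorem exists_zpow_valuation_eq {p : ℕ} (hp : p.Prime) {A : ValuationSubring Q̄}
    (hA : A.LiesOverPrime p) {c : Q̄} (hc : c ≠ 0)
    (hfix : ∀ σ ∈ A.inertiaSubgroupIn ℚ, σ c = c) :
    ∃ m : ℤ, A.valuation c = A.valuation (p : Q̄) ^ m := by
  classical
  have halg : Algebra.IsAlgebraic ℚ Q̄ := AlgebraicClosure.isAlgebraic ℚ
  have : IsAlgClosure ℚ Q̄ := ⟨inferInstance, halg⟩
  have : Normal ℚ Q̄ := IsAlgClosure.normal ℚ Q̄
  have : IsGalois ℚ Q̄ := ⟨⟩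
  obtain ⟨n, hn, hint⟩ := IsAlgebraic.exists_integral_multiple ((IsFractionRing.isAlgebraic_iff ℤ ℚ Q̄).2
    ((AlgebraicClosure.isAlgebraic ℚ).isAlgebraic c))
  have hnc : (n : Q̄) * c ≠ 0 := mul_ne_zero (Int.cast_ne_zero.2 hn) hc
  rw [zsmul_eq_mul] at hint
  have hL0 : ∃ L : IntermediateField ℚ Q̄, FiniteDimensional ℚ L ∧ IsGalois ℚ L ∧
      (n : Q̄) * c ∈ L := by
    refine ⟨IntermediateField.normalClosure ℚ (IntermediateField.adjoin ℚ {(n : Q̄) * c}) Q̄,
      ?_, ?_, ?_⟩
    · have := IntermediateField.adjoin.finiteDimensional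
        (Algebra.IsIntegral.isIntegral (R := ℚ) ((n : Q̄) * c))
      exact normalClosure.is_finiteDimensional ℚ _ Q̄
    · exact IsGalois.normalClosure ℚ _ Q̄
    · exact IntermediateField.le_normalClosure _ (IntermediateField.mem_adjoin_simple_self ℚ _)
  obtain ⟨L, hLfin, hLgal, hcL⟩ := hL0
  have : NumberField L := ⟨⟩
  let ι : NumberField.RingOfIntegers L →+* Zbar :=
    { toFun := fun x => ⟨((x : L) : Q̄), (x.isIntegral_coe).map (L.val.restrictScalars ℤ)⟩
      map_one' := rfl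
      map_mul' := fun _ _ => rfl
      map_zero' := rfl
      map_add' := fun _ _ => rfl }
  let P : Ideal (NumberField.RingOfIntegers L) := (centre A).comap ι
  have hmemP : ∀ x, x ∈ P ↔ ((x : L) : Q̄) ∈ A.nonunits := fun x => by
    rw [Ideal.mem_comap, mem_centre_iff]; rfl
  have hcast : ∀ k : ℕ, (((k : NumberField.RingOfIntegers L) : L) : Q̄) = (k : Q̄) := fun k =>
    map_natCast (L.val.toRingHom.comp (algebraMap (NumberField.RingOfIntegers L) L)) k
  have hpP : (p : NumberField.RingOfIntegers L) ∈ P := by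
    rw [hmemP, hcast]
    exact hA
  let c' : NumberField.RingOfIntegers L := ⟨⟨(n : Q̄) * c, hcL⟩,
    (isIntegral_algHom_iff (L.val.restrictScalars ℤ) (Subtype.val_injective)).1 hint⟩
  have hc' : c' ≠ 0 := fun h => hnc (congrArg (fun x : NumberField.RingOfIntegers L => ((x : L) : Q̄)) h)
  have hfix' : ∀ σ ∈ P.inertia Gal(L/ℚ), σ • c' = c' := by
    intro σ hσ
    let _ : TopologicalSpace Zbar := ⊥
    have : DiscreteTopology Zbar := ⟨rfl⟩
    have : ContinuousSMul (Q̄ ≃ₐ[ℚ] Q̄) Zbar := continuousSMul_iff_stabilizer_isOpen.2 fun b => by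
      convert stabilizer_isOpen_of_isIntegral (K := ℚ) (b : Q̄) using 2
      ext g
      exact ⟨fun h => congrArg Subtype.val h, fun h => Subtype.ext h⟩
    obtain ⟨σ₀, rfl⟩ := AlgEquiv.restrictNormalHom_surjective (F := ℚ) (K₁ := L) (E := Q̄) σ
    have hcomm : ∀ y : L, σ₀ (y : Q̄) = ((AlgEquiv.restrictNormalHom L σ₀) y : L) :=
      fun y => (AlgEquiv.restrictNormal_commutes σ₀ L y).symm
    obtain ⟨g, hg, hgI⟩ := exists_mul_mem_inertia L.fixingSubgroup L.fixingSubgroup_isClosed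
      (centre A) (σ := σ₀) fun x hx => by
        have hxL : (x : Q̄) ∈ L := by
          rw [← InfiniteGalois.fixedField_fixingSubgroup L]
          exact fun h => congrArg Subtype.val (hx h h.2)
        have hxint : IsIntegral ℤ (⟨(x : Q̄), hxL⟩ : L) :=
          (isIntegral_algHom_iff (L.val.restrictScalars ℤ) (Subtype.val_injective)).1 x.2
        have h := (hmemP _).1 (hσ ⟨⟨(x : Q̄), hxL⟩, hxint⟩)
        rw [mem_centre_iff]
        convert h using 1
        change σ₀ (x : Q̄) - x = ((AlgEquiv.restrictNormalHom L σ₀) ⟨(x : Q̄), hxL⟩ : L) - (x : Q̄)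
        rw [← hcomm]
    have h := hfix _ (mem_inertiaSubgroupIn_of_mem_inertia_centre A hgI)
    refine Subtype.ext (Subtype.ext ?_)
    change ((AlgEquiv.restrictNormalHom L σ₀) ⟨(n : Q̄) * c, hcL⟩ : L) = (n : Q̄) * c
    rw [← hcomm]
    change σ₀ ((n : Q̄) * c) = (n : Q̄) * c
    conv_rhs => rw [← h]
    rw [map_mul, map_intCast, AlgEquiv.mul_apply]
    congr 1
    have hgfix : g ((n : Q̄) * c) = (n : Q̄) * c := hg ⟨_, hcL⟩
    rw [map_mul, map_intCast] at hgfix
    rw [mul_left_cancel₀ (Int.cast_ne_zero.2 hn) hgfix]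
  obtain ⟨m, s, t, hs, ht, hst⟩ := exists_pow_mul_unit_of_inertia_fixed P hp hpP hc' hfix'
  have hval : ∀ x, x ∉ P → A.valuation ((x : L) : Q̄) = 1 := fun x hx => valuation_eq_one
    (Galois.mem_valuationSubring_of_isIntegral A ((x.isIntegral_coe).map (L.val.restrictScalars ℤ)))
    fun h => hx ((hmemP x).2 h)
  have h := congrArg (fun x : NumberField.RingOfIntegers L => A.valuation ((x : L) : Q̄)) hst
  simp only [map_mul, map_pow, MulMemClass.coe_mul, SubmonoidClass.coe_pow, hcast] at h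
  change A.valuation ((s : L) : Q̄) * A.valuation ((n : Q̄) * c) = _ at h
  obtain ⟨k, hk⟩ := valuation_intCast_eq_pow hp hA hn
  rw [hval s hs, hval t ht, one_mul, mul_one, map_mul, hk] at h
  refine ⟨(m : ℤ) - k, ?_⟩
  have hp0 : A.valuation (p : Q̄) ≠ 0 := (map_ne_zero _).2 (Nat.cast_ne_zero.2 hp.ne_zero)
  rw [zpow_sub₀ hp0, zpow_natCast, zpow_natCast, eq_div_iff (pow_ne_zero _ hp0), mul_comm, h]

end Fermat.Agent.AtP
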