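/-
The ordinary case: when the reduced division polynomial is not constant, the kernel of reduction
on `E[p]` is a line; inertia is trivial on the quotient and cyclotomic on the line.
-/
import Fermat.Agent.AtP.Basic
import Fermat.Agent.AtP.Torsion
import Fermat.Agent.EC.Torsion
import Fermat.Agent.Weil.DetCyclotomic
import Mathlib.LinearAlgebra.Dimension.Constructions
import Mathlib.LinearAlgebra.Matrix.Determinant.Basic

set_option autoImplicit false
set_option maxHeartbeats 400000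

open Polynomial WeierstrassCurve WeierstrassCurve.Affine
open scoped WeierstrassCurve.Affine

namespace Fermat.Agent.AtP

local notation "Q̄" => AlgebraicClosure ℚ

variable {W : WeierstrassCurve ℤ} {p : ℕ} {A : ValuationSubring Q̄}

/-- `E[p]` is a plane. -/
theorem finrank_tors [Fact p.Prime] (hΔ : W.Δ ≠ 0) :
    Module.finrank (ZMod p) (Tors W p) = 2 := by
  have : ((W.map (Int.castRingHom ℚ))⁄Q̄).IsElliptic :=
    (isElliptic_iff _).2 (isUnit_iff_ne_zero.2 (curveQbar_Δ_ne_zero hΔ))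
  exact EC.finrank_torsionBy (W := (W.map (Int.castRingHom ℚ)))
    (Nat.cast_ne_zero.2 (Fact.out : p.Prime).ne_zero)

open Classical in
/-- The kernel of reduction on `E[p]`. -/
noncomputable def formalPart [Fact p.Prime] (hA : A.LiesOverPrime p)
    (hgood : W.IsGoodPrimeFor p) : Submodule (ZMod p) (Tors W p) :=
  AddSubgroup.toZModSubmodule p
    ((ECRed.redHom (Fact.out : p.Prime) hA hgood).comp
      (Submodule.torsionBy ℤ (curveQbar W).Point p).subtype.toAddMonoidHom).ker

theorem mem_formalPart [Fact p.Prime] (hA : A.LiesOverPrime p) (hgood : W.IsGoodPrimeFor p)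
    (x : Tors W p) :
    x ∈ formalPart hA hgood ↔ (x : (curveQbar W).Point) = 0 ∨
      ∃ a b h, (x : (curveQbar W).Point) = .some a b h ∧ a ∉ A := by
  classical
  exact ECRed.redHom_eq_zero_iff (Fact.out : p.Prime) hA hgood (x : (curveQbar W).Point)

theorem decomposition_mem_formalPart [Fact p.Prime] (hA : A.LiesOverPrime p)
    (hgood : W.IsGoodPrimeFor p) {σ : Q̄ ≃ₐ[ℚ] Q̄} (hσ : σ ∈ A.decompositionSubgroup ℚ)
    {x : Tors W p} (hx : x ∈ formalPart hA hgood) : σ • x ∈ formalPart hA hgood := by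
  rw [mem_formalPart] at hx ⊢
  rcases hx with hx | ⟨a, b, h, hab, ha⟩
  · exact Or.inl (show σ • (x : (curveQbar W).Point) = 0 by rw [hx]; exact smul_zero (A := (curveQbar W).Point) σ)
  · refine Or.inr ⟨σ a, σ b, ?_⟩
    refine ⟨_, (congrArg (σ • ·) hab : σ • (x : (curveQbar W).Point) = _), ?_⟩
    exact fun h' => ha ((ECRed.mem_iff_smul_mem ⟨σ, hσ⟩ a).1 h')

theorem inertia_sub_mem_formalPart [Fact p.Prime] (hA : A.LiesOverPrime p)
    (hgood : W.IsGoodPrimeFor p) {σ : Q̄ ≃ₐ[ℚ] Q̄} (hσ : σ ∈ A.inertiaSubgroupIn ℚ)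
    (x : Tors W p) : σ • x - x ∈ formalPart hA hgood := by
  classical
  change ECRed.redHom (Fact.out : p.Prime) hA hgood ((σ • (x : (curveQbar W).Point)) - x) = 0
  rw [map_sub, ECRed.redHom_smul_of_mem_inertia (Fact.out : p.Prime) hA hgood hσ, sub_self]

theorem finrank_formalPart [Fact p.Prime] (hp2 : p ≠ 2) (hA : A.LiesOverPrime p)
    (hgood : W.IsGoodPrimeFor p) {k : ℕ} (hk : k ≠ 0)
    (hdvd : ¬ (p : ℤ) ∣ (W.preΨ' p).coeff k) :
    Module.finrank (ZMod p) (formalPart hA hgood) = 1 := by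
  have hp : p.Prime := Fact.out
  have hΔ := Δ_ne_zero_of_isGoodPrimeFor hgood
  have h2 := finrank_tors (p := p) hΔ
  have : Module.Finite (ZMod p) (Tors W p) := Module.finite_of_finrank_eq_succ h2
  have hpoint : ∀ x : Q̄, ((curveQbar W).preΨ' p).eval x = 0 → ∃ P : Tors W p, P ≠ 0 ∧
      ∃ y h, (P : (curveQbar W).Point) = .some x y h := by
    intro x hx
    obtain ⟨y, h, hpt⟩ := exists_point_of_root hp hp2 hΔ hx
    refine ⟨⟨.some x y h, (Submodule.mem_torsionBy_iff _ _).2 (by rwa [natCast_zsmul])⟩, ?_,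
      y, h, rfl⟩
    exact fun h0 => Point.some_ne_zero h (congrArg Subtype.val h0)
  have hne_top : formalPart hA hgood ≠ ⊤ := by
    obtain ⟨r, hrA, hr⟩ := exists_root_mem_of_not_const hp hA hk hdvd
    obtain ⟨P, -, y, h, hP⟩ := hpoint r hr
    intro htop
    rcases (mem_formalPart hA hgood P).1 (htop ▸ Submodule.mem_top) with h0 | ⟨a, b, h', hab, ha⟩
    · exact Point.some_ne_zero h (hP.symm.trans h0)
    · rw [hP] at hab
      cases hab
      exact ha hrA
  have hne_bot : formalPart hA hgood ≠ ⊥ := by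
    obtain ⟨r, hrA, hr⟩ := exists_root_not_mem hp hp2 hgood hA
    obtain ⟨P, hP0, y, h, hP⟩ := hpoint r hr
    intro hbot
    have := (mem_formalPart hA hgood P).2 (Or.inr ⟨r, y, h, hP, hrA⟩)
    rw [hbot, Submodule.mem_bot] at this
    exact hP0 this
  have h1 := Submodule.finrank_lt hne_top
  have h0 : Module.finrank (ZMod p) (formalPart hA hgood) ≠ 0 :=
    mt Submodule.finrank_eq_zero.1 hne_bot
  omega

/-- On a line with trivial quotient the scalar is the determinant. -/
theorem smul_eq_det_smul {k V : Type*} [Field k] [AddCommGroup V] [Module k V]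
    [FiniteDimensional k V] (h2 : Module.finrank k V = 2) (N : Submodule k V)
    (hN : Module.finrank k N = 1) (f : Module.End k V) (hf : ∀ v, f v - v ∈ N) {x : V}
    (hx : x ∈ N) : f x = LinearMap.det f • x := by
  by_cases hx0 : x = 0
  · rw [hx0, map_zero, smul_zero]
  obtain ⟨w, hw⟩ : ∃ w, w ∉ N := by
    by_contra! hall
    rw [Submodule.eq_top_iff'.2 hall, finrank_top, h2] at hN
    omega
  have hspan : ∀ v ∈ N, ∃ c : k, c • x = v := fun v hv => by
    obtain ⟨c, hc⟩ := (finrank_eq_one_iff_of_nonzero' (⟨x, hx⟩ : N) (by simpa using hx0)).1 hN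
      ⟨v, hv⟩
    exact ⟨c, congrArg Subtype.val hc⟩
  have hfx : f x ∈ N := by simpa using N.add_mem (hf x) hx
  obtain ⟨s, hs⟩ := hspan _ hfx
  obtain ⟨t, ht⟩ := hspan _ (hf w)
  have hli : LinearIndependent k ![x, w] := by
    rw [LinearIndependent.pair_iff' hx0]
    intro c hc
    exact hw (hc ▸ N.smul_mem c hx)
  let b := basisOfLinearIndependentOfCardEqFinrank hli (by rw [Fintype.card_fin, h2])
  have hb : ⇑b = ![x, w] := coe_basisOfLinearIndependentOfCardEqFinrank hli _
  have hb0 : b 0 = x := congrFun hb 0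
  have hb1 : b 1 = w := congrFun hb 1
  have e0 : f (b 0) = s • b 0 := by rw [hb0, hs]
  have e1 : f (b 1) = t • b 0 + b 1 := by rw [hb0, hb1, ht, sub_add_cancel]
  have hdet : LinearMap.det f = s := by
    rw [← LinearMap.det_toMatrix b, Matrix.det_fin_two]
    simp [LinearMap.toMatrix_apply, e0, e1]
  rw [hdet, hs]

theorem cyclotomic_eq_natCast [Fact p.Prime] (hn : Nat.card (rootsOfUnity p Q̄) = p)
    (σ : Q̄ ≃ₐ[ℚ] Q̄) {a : ℕ} (ha : ∀ μ : Q̄, μ ^ p = 1 → σ μ = μ ^ a) :
    ((modularCyclotomicCharacter Q̄ hn (σ : Q̄ ≃+* Q̄) : (ZMod p)ˣ) : ZMod p) = (a : ZMod p) := by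
  refine (modularCyclotomicCharacter.unique Q̄ hn (σ : Q̄ ≃+* Q̄) (c := (a : ZMod p)) ?_).symm
  intro t ht
  have ht' : (t : Q̄) ^ p = 1 := by
    rw [← Units.val_pow_eq_pow_val, (mem_rootsOfUnity p t).1 ht, Units.val_one]
  rw [show (σ : Q̄ ≃+* Q̄) (t : Q̄) = σ (t : Q̄) from rfl, ha _ ht', ZMod.val_natCast,
    pow_eq_pow_mod a ht']

theorem isOrdinaryLine_formalPart [Fact p.Prime] (hp2 : p ≠ 2) (hA : A.LiesOverPrime p)
    (hgood : W.IsGoodPrimeFor p) {k : ℕ} (hk : k ≠ 0)
    (hdvd : ¬ (p : ℤ) ∣ (W.preΨ' p).coeff k) :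
    IsOrdinaryLine A (formalPart hA hgood) where
  finrank_eq := finrank_formalPart hp2 hA hgood hk hdvd
  decomposition_mem σ hσ x hx := decomposition_mem_formalPart hA hgood hσ hx
  inertia_sub_mem σ hσ x := inertia_sub_mem_formalPart hA hgood hσ x
  inertia_cyclotomic σ hσ a ha x hx := by
    have hΔ := Δ_ne_zero_of_isGoodPrimeFor hgood
    have h2 := finrank_tors (p := p) hΔ
    have : Module.Finite (ZMod p) (Tors W p) := Module.finite_of_finrank_eq_succ h2
    have hn := Weil.card_rootsOfUnity_Qbar p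
    have h := smul_eq_det_smul h2 _ (finrank_formalPart hp2 hA hgood hk hdvd)
      (Point.galoisRepModuleEnd ℚ (W.map (Int.castRingHom ℚ)) p σ)
      (fun v => inertia_sub_mem_formalPart hA hgood hσ v) hx
    rw [Point.galoisRepModuleEnd_apply] at h
    have hell : (W.map (Int.castRingHom ℚ)).IsElliptic :=
      (isElliptic_iff _).2 (isUnit_iff_ne_zero.2 (by rw [map_Δ]; simpa using hΔ))
    rw [h, Weil.det_galoisRepModuleEnd (W.map (Int.castRingHom ℚ)) p hn,
      cyclotomic_eq_natCast hn σ ha, Nat.cast_smul_eq_nsmul]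

end Fermat.Agent.AtP
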