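/-
The supersingular case: when the reduced division polynomial is constant, inertia permutes the
nonzero `p`-torsion points transitively.
-/
import Fermat.Agent.AtP.Basic
import Fermat.Agent.AtP.Torsion
import Fermat.Agent.AtP.Inertia
import Fermat.Agent.EC.Torsion

set_option autoImplicit false
set_option maxHeartbeats 400000

open Polynomial WeierstrassCurve WeierstrassCurve.Affine
open scoped WeierstrassCurve.Affine

namespace Fermat.Agent.AtP

local notation "Q̄" => AlgebraicClosure ℚ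

variable {W : WeierstrassCurve ℤ} {p : ℕ} {A : ValuationSubring Q̄}

/-- The parameter `x/y` at infinity, with value `0` at the origin. -/
noncomputable def zCoord : (curveQbar W).Point → Q̄
  | .zero => 0
  | .some x y _ => x / y

theorem zCoord_smul (σ : Q̄ ≃ₐ[ℚ] Q̄) (P : (curveQbar W).Point) :
    zCoord (W := W) (σ • P) = σ (zCoord P) := by
  cases P with
  | zero => exact (map_zero σ).symm
  | some x y h => exact (map_div₀ σ x y).symm

theorem valuation_zCoord_pow (hp : p.Prime) (hp2 : p ≠ 2) (hgood : W.IsGoodPrimeFor p)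
    (hA : A.LiesOverPrime p) (hconst : ∀ k, k ≠ 0 → (p : ℤ) ∣ (W.preΨ' p).coeff k)
    {P : (curveQbar W).Point} (hP : p • P = 0) (hP0 : P ≠ 0) :
    A.valuation (zCoord P) ^ (p ^ 2 - 1) = A.valuation (p : Q̄) := by
  cases P with
  | zero => exact absurd rfl hP0
  | some x y h =>
    obtain ⟨hx, hxp⟩ := valuation_pow_mul_eq_one_of_const hp hp2 hgood hA hconst
      ((nsmul_some_eq_zero_iff_root hp hp2 h).1 hP)
    have hy := valuation_y_sq h.1 hx
    have heven : p ^ 2 - 1 = 2 * ((p ^ 2 - 1) / 2) := by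
      obtain ⟨k, hk⟩ := hp.odd_of_ne_two hp2
      subst hk
      ring_nf
      omega
    have hx0 : A.valuation x ≠ 0 := (zero_lt_one.trans hx).ne'
    change A.valuation (x / y) ^ (p ^ 2 - 1) = _
    rw [heven, pow_mul, map_div₀, div_pow, hy, pow_succ (A.valuation x) 2, div_mul_cancel_left₀
      (pow_ne_zero 2 hx0), inv_pow, inv_eq_of_mul_eq_one_right hxp]

theorem isInertiaTransitive_of_const [Fact p.Prime] (hp2 : p ≠ 2) (hgood : W.IsGoodPrimeFor p)
    (hA : A.LiesOverPrime p) (hconst : ∀ k, k ≠ 0 → (p : ℤ) ∣ (W.preΨ' p).coeff k) :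
    IsInertiaTransitive W p A := by
  classical
  have hp : p.Prime := Fact.out
  have hell : ((W.map (Int.castRingHom ℚ))⁄Q̄).IsElliptic :=
    (isElliptic_iff _).2 (isUnit_iff_ne_zero.2
      (curveQbar_Δ_ne_zero (Δ_ne_zero_of_isGoodPrimeFor hgood)))
  have hcard : Nat.card (Tors W p) = p ^ 2 :=
    EC.card_torsionBy_Qbar (W := (W.map (Int.castRingHom ℚ))) hp.ne_zero
  have : Finite (Tors W p) := Nat.finite_of_card_ne_zero (hcard ▸ pow_ne_zero 2 hp.ne_zero)
  cases nonempty_fintype (Tors W p)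
  rw [Nat.card_eq_fintype_card] at hcard
  have htors : ∀ R : Tors W p, p • (R : (curveQbar W).Point) = 0 := fun R => by
    rw [← natCast_zsmul]
    exact (Submodule.mem_torsionBy_iff _ _).1 R.2
  intro P Q hP hQ
  let O : Finset (Tors W p) :=
    Finset.univ.filter fun R => ∃ σ ∈ A.inertiaSubgroupIn ℚ, σ • P = R
  have hmem : ∀ R, R ∈ O ↔ ∃ σ ∈ A.inertiaSubgroupIn ℚ, σ • P = R := fun R => by
    simp [O]
  have hPO : P ∈ O := (hmem P).2 ⟨1, one_mem _, one_smul _ P⟩
  have hsub : O ⊆ Finset.univ.erase 0 := fun R hR => by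
    obtain ⟨σ, -, rfl⟩ := (hmem R).1 hR
    refine Finset.mem_erase.2 ⟨fun h => hP ?_, Finset.mem_univ _⟩
    rwa [smul_eq_zero_iff_eq] at h
  have hz : ∀ R ∈ O, A.valuation (zCoord (R : (curveQbar W).Point)) ^ (p ^ 2 - 1) =
      A.valuation (p : Q̄) := fun R hR =>
    valuation_zCoord_pow hp hp2 hgood hA hconst (htors R) fun h =>
      (Finset.mem_erase.1 (hsub hR)).1 (Subtype.ext h)
  set c := ∏ R ∈ O, zCoord (R : (curveQbar W).Point) with hc
  have hcval : A.valuation c ^ (p ^ 2 - 1) = A.valuation (p : Q̄) ^ O.card := by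
    rw [hc, map_prod, ← Finset.prod_pow, Finset.prod_congr rfl hz, Finset.prod_const]
  have hv0 : A.valuation (p : Q̄) ≠ 0 := natCast_valuation_ne_zero hp
  have hexp : p ^ 2 - 1 ≠ 0 := by
    have := Nat.one_lt_pow two_ne_zero hp.one_lt
    omega
  have hc0 : c ≠ 0 := fun h => by
    rw [h, map_zero, zero_pow hexp] at hcval
    exact pow_ne_zero _ hv0 hcval.symm
  have hfix : ∀ σ ∈ A.inertiaSubgroupIn ℚ, σ c = c := by
    intro σ hσ
    rw [hc, map_prod]
    refine Finset.prod_nbij' (fun R => σ • R) (fun R => σ⁻¹ • R) (fun R hR => ?_) (fun R hR => ?_)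
      (fun R _ => inv_smul_smul σ R) (fun R _ => smul_inv_smul σ R) fun R _ => ?_
    · obtain ⟨τ, hτ, rfl⟩ := (hmem R).1 hR
      exact (hmem _).2 ⟨σ * τ, mul_mem hσ hτ, mul_smul σ τ P⟩
    · obtain ⟨τ, hτ, rfl⟩ := (hmem R).1 hR
      exact (hmem _).2 ⟨σ⁻¹ * τ, mul_mem (inv_mem hσ) hτ, mul_smul σ⁻¹ τ P⟩
    · exact (zCoord_smul σ (R : (curveQbar W).Point)).symm
  obtain ⟨m, hm⟩ := exists_zpow_valuation_eq hp hA hc0 hfix
  rw [hm, ← zpow_natCast, ← zpow_mul, ← zpow_natCast (n := O.card)] at hcval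
  have heq : m * ((p ^ 2 - 1 : ℕ) : ℤ) = (O.card : ℤ) :=
    (zpow_right_inj₀ (zero_lt_iff.2 hv0) (natCast_valuation_lt_one hA).ne).1 hcval
  have hpos : 0 < O.card := Finset.card_pos.2 ⟨P, hPO⟩
  have hmpos : 1 ≤ m := by
    by_contra! hlt
    nlinarith [(Int.natCast_nonneg (p ^ 2 - 1)), (by exact_mod_cast hpos : (0 : ℤ) < O.card)]
  have hge : p ^ 2 - 1 ≤ O.card := by
    have : (((p ^ 2 - 1 : ℕ)) : ℤ) ≤ O.card := by
      rw [← heq]; exact le_mul_of_one_le_left (Int.natCast_nonneg _) hmpos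
    exact_mod_cast this
  have hO : O = Finset.univ.erase 0 := Finset.eq_of_subset_of_card_le hsub (by
    rw [Finset.card_erase_of_mem (Finset.mem_univ _), Finset.card_univ, hcard]
    exact hge)
  exact (hmem Q).1 (hO ▸ Finset.mem_erase.2 ⟨hQ, Finset.mem_univ _⟩)

end Fermat.Agent.AtP
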