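/-
The `p`-torsion of an elliptic curve with good reduction at `p`, as a module over the inertia
group at a place above `p`.

Main results (`p` an odd prime of good reduction of `W` over `ℤ`, `A` a place of `ℚ̄` over `p`):

* `inertia_dichotomy`: either inertia at `A` is transitive on the nonzero points of `E[p]`
  (the supersingular case), or there is a line, stable under the decomposition group, modulo
  which inertia acts trivially and on which it acts by the cyclotomic character (the ordinary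
  case);
* `inertia_trivial_on_sub_or_quotient`: for an inertia stable line, inertia is trivial either on
  the line or on the quotient; `inertia_characters_of_stable_line` adds that the other character
  is the cyclotomic one;
* `inertia_transitive_iff_dvd_apOfModel`: the supersingular case is exactly `p ∣ a_p`.
-/
import Fermat.Agent.AtP.Transitive
import Fermat.Agent.AtP.Ordinary
import Fermat.Agent.AtP.Criterion

set_option autoImplicit false

open scoped WeierstrassCurve.Affine

namespace Fermat.Agent.AtP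

variable {W : WeierstrassCurve ℤ} {p : ℕ} [Fact p.Prime]
  {A : ValuationSubring (AlgebraicClosure ℚ)}

/-- The dichotomy for `E[p]` at an odd prime `p` of good reduction. -/
theorem inertia_dichotomy (hp2 : p ≠ 2) (hgood : W.IsGoodPrimeFor p) (hA : A.LiesOverPrime p) :
    IsInertiaTransitive W p A ∨ ∃ N : Submodule (ZMod p) (Tors W p), IsOrdinaryLine A N := by
  by_cases h : ∀ k, k ≠ 0 → (p : ℤ) ∣ (W.preΨ' p).coeff k
  · exact Or.inl (isInertiaTransitive_of_const hp2 hgood hA h)
  · push Not at h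
    obtain ⟨k, hk, hdvd⟩ := h
    exact Or.inr ⟨_, isOrdinaryLine_formalPart hp2 hA hgood hk hdvd⟩

/-- In the transitive case there is no inertia stable line. -/
theorem IsInertiaTransitive.eq_bot_or_eq_top (h : IsInertiaTransitive W p A)
    (N : Submodule (ZMod p) (Tors W p))
    (hN : ∀ σ ∈ A.inertiaSubgroupIn ℚ, ∀ x ∈ N, σ • x ∈ N) : N = ⊥ ∨ N = ⊤ := by
  by_cases hb : N = ⊥
  · exact Or.inl hb
  obtain ⟨x, hx, hx0⟩ := (Submodule.ne_bot_iff N).1 hb
  refine Or.inr (eq_top_iff.2 fun y _ => ?_)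
  by_cases hy : y = 0
  · exact hy ▸ N.zero_mem
  obtain ⟨σ, hσ, rfl⟩ := h x y hx0 hy
  exact hN σ hσ x hx

/-- For an inertia stable line of `E[p]` at an odd good prime `p`, inertia acts trivially either
on the line or on the quotient. -/
theorem inertia_trivial_on_sub_or_quotient (hp2 : p ≠ 2) (hgood : W.IsGoodPrimeFor p)
    (hA : A.LiesOverPrime p) (N : Submodule (ZMod p) (Tors W p)) (hb : N ≠ ⊥) (ht : N ≠ ⊤)
    (hN : ∀ σ ∈ A.inertiaSubgroupIn ℚ, ∀ x ∈ N, σ • x ∈ N) :
    (∀ σ ∈ A.inertiaSubgroupIn ℚ, ∀ x ∈ N, σ • x = x) ∨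
      (∀ σ ∈ A.inertiaSubgroupIn ℚ, ∀ x : Tors W p, σ • x - x ∈ N) := by
  have h2 := finrank_tors (p := p) (Δ_ne_zero_of_isGoodPrimeFor hgood)
  have : Module.Finite (ZMod p) (Tors W p) := Module.finite_of_finrank_eq_succ h2
  have hN1 : Module.finrank (ZMod p) N = 1 := by
    have h1 := Submodule.finrank_lt ht
    have h0 : Module.finrank (ZMod p) N ≠ 0 := mt Submodule.finrank_eq_zero.1 hb
    omega
  rcases inertia_dichotomy hp2 hgood hA with h | ⟨K, hK⟩
  · exact absurd (h.eq_bot_or_eq_top N hN) (by tauto)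
  by_cases hNK : N = K
  · exact Or.inr (hNK ▸ hK.inertia_sub_mem)
  refine Or.inl fun σ hσ x hx => sub_eq_zero.1 ?_
  by_contra hne
  apply hNK
  have hmemN : σ • x - x ∈ N := N.sub_mem (hN σ hσ x hx) hx
  have hmemK : σ • x - x ∈ K := hK.inertia_sub_mem σ hσ x
  have hspan : ∀ L : Submodule (ZMod p) (Tors W p), Module.finrank (ZMod p) L = 1 →
      σ • x - x ∈ L → L = Submodule.span (ZMod p) {σ • x - x} := fun L hL hmem =>
    (Submodule.eq_of_le_of_finrank_eq ((Submodule.span_singleton_le_iff_mem _ _).2 hmem)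
      ((finrank_span_singleton hne).trans hL.symm)).symm
  rw [hspan N hN1 hmemN, hspan K hK.finrank_eq hmemK]

/-- For an inertia stable line of `E[p]` at an odd good prime `p`, one of the two characters of
inertia is trivial and the other one is the cyclotomic character. -/
theorem inertia_characters_of_stable_line (hp2 : p ≠ 2) (hgood : W.IsGoodPrimeFor p)
    (hA : A.LiesOverPrime p) (N : Submodule (ZMod p) (Tors W p)) (hb : N ≠ ⊥) (ht : N ≠ ⊤)
    (hN : ∀ σ ∈ A.inertiaSubgroupIn ℚ, ∀ x ∈ N, σ • x ∈ N) :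
    (∀ σ ∈ A.inertiaSubgroupIn ℚ, (∀ x ∈ N, σ • x = x) ∧
      ∀ a : ℕ, (∀ μ : AlgebraicClosure ℚ, μ ^ p = 1 → σ μ = μ ^ a) →
        ∀ x : Tors W p, σ • x - a • x ∈ N) ∨
    (∀ σ ∈ A.inertiaSubgroupIn ℚ, (∀ x : Tors W p, σ • x - x ∈ N) ∧
      ∀ a : ℕ, (∀ μ : AlgebraicClosure ℚ, μ ^ p = 1 → σ μ = μ ^ a) →
        ∀ x ∈ N, σ • x = a • x) := by
  have h2 := finrank_tors (p := p) (Δ_ne_zero_of_isGoodPrimeFor hgood)
  have : Module.Finite (ZMod p) (Tors W p) := Module.finite_of_finrank_eq_succ h2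
  have hN1 : Module.finrank (ZMod p) N = 1 := by
    have h1 := Submodule.finrank_lt ht
    have h0 : Module.finrank (ZMod p) N ≠ 0 := mt Submodule.finrank_eq_zero.1 hb
    omega
  rcases inertia_dichotomy hp2 hgood hA with h | ⟨K, hK⟩
  · exact absurd (h.eq_bot_or_eq_top N hN) (by tauto)
  by_cases hNK : N = K
  · subst hNK
    exact Or.inr fun σ hσ => ⟨hK.inertia_sub_mem σ hσ, hK.inertia_cyclotomic σ hσ⟩
  -- the two lines are complementary: inertia fixes `N` and acts on `K ≅ E[p] ⧸ N` cyclotomically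
  have hdis : N ⊓ K = ⊥ := by
    rw [eq_bot_iff]
    intro v hv
    rw [Submodule.mem_bot]
    by_contra hne
    have hspan : ∀ L : Submodule (ZMod p) (Tors W p), Module.finrank (ZMod p) L = 1 →
        v ∈ L → L = Submodule.span (ZMod p) {v} := fun L hL hmem =>
      (Submodule.eq_of_le_of_finrank_eq ((Submodule.span_singleton_le_iff_mem _ _).2 hmem)
        ((finrank_span_singleton hne).trans hL.symm)).symm
    exact hNK (by rw [hspan N hN1 hv.1, hspan K hK.finrank_eq hv.2])
  have htop : N ⊔ K = ⊤ := by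
    apply Submodule.eq_top_of_finrank_eq
    have := Submodule.finrank_sup_add_finrank_inf_eq N K
    rw [hdis, finrank_bot, hN1, hK.finrank_eq] at this
    omega
  have hfix : ∀ σ ∈ A.inertiaSubgroupIn ℚ, ∀ x ∈ N, σ • x = x := fun σ hσ x hx => by
    have h1 : σ • x - x ∈ N ⊓ K :=
      ⟨N.sub_mem (hN σ hσ x hx) hx, hK.inertia_sub_mem σ hσ x⟩
    rw [hdis, Submodule.mem_bot] at h1
    exact sub_eq_zero.1 h1
  refine Or.inl fun σ hσ => ⟨hfix σ hσ, fun a ha x => ?_⟩
  obtain ⟨n, hn, k, hk, rfl⟩ := Submodule.mem_sup.1 (htop ▸ Submodule.mem_top : x ∈ N ⊔ K)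
  rw [smul_add σ n k, hfix σ hσ n hn, hK.inertia_cyclotomic σ hσ a ha k hk, nsmul_add]
  have h3 : n + a • k - (a • n + a • k) = n - a • n := by abel
  rw [h3]
  exact N.sub_mem hn (nsmul_mem hn a)

/-- The supersingular case is `p ∣ a_p`. -/
theorem inertia_transitive_iff_dvd_apOfModel (hp2 : p ≠ 2) (hgood : W.IsGoodPrimeFor p)
    (hA : A.LiesOverPrime p) :
    IsInertiaTransitive W p A ↔ (p : ℤ) ∣ W.apOfModel p := by
  rw [← const_iff_dvd_apOfModel hp2 hgood]
  refine ⟨fun h => ?_, isInertiaTransitive_of_const hp2 hgood hA⟩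
  by_contra hc
  push Not at hc
  obtain ⟨k, hk, hdvd⟩ := hc
  have hK := isOrdinaryLine_formalPart hp2 hA hgood hk hdvd
  have h2 := finrank_tors (p := p) (Δ_ne_zero_of_isGoodPrimeFor hgood)
  rcases h.eq_bot_or_eq_top (formalPart hA hgood) (fun σ hσ x hx => by
      have := (formalPart hA hgood).add_mem (hK.inertia_sub_mem σ hσ x) hx
      rwa [sub_add_cancel] at this) with he | he
  · have := hK.finrank_eq
    rw [he, finrank_bot] at this
    exact zero_ne_one this
  · have := hK.finrank_eq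
    rw [he, finrank_top, h2] at this
    omega

/-- The ordinary case: `p ∤ a_p` gives the line. -/
theorem exists_isOrdinaryLine_of_not_dvd_apOfModel (hp2 : p ≠ 2) (hgood : W.IsGoodPrimeFor p)
    (hA : A.LiesOverPrime p) (hap : ¬ (p : ℤ) ∣ W.apOfModel p) :
    ∃ N : Submodule (ZMod p) (Tors W p), IsOrdinaryLine A N :=
  (inertia_dichotomy hp2 hgood hA).resolve_left
    fun h => hap ((inertia_transitive_iff_dvd_apOfModel hp2 hgood hA).1 h)

end Fermat.Agent.AtP
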